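import Fermat.Agent.ModularityLifting.Setup
import Fermat.Agent.FiniteFlat.Operations
import Mathlib.LinearAlgebra.Matrix.Charpoly.Coeff
import Mathlib.LinearAlgebra.Matrix.GeneralLinearGroup.Defs

/-!
# Local conditions along a map of coefficient rings; the trace of an involution

Unramified, Steinberg, strict and flat conditions, cyclotomic determinant and absolute
irreducibility pass along `mapRep`; an involution of determinant `-1` has trace zero.
-/

set_option autoImplicit false

noncomputable section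

namespace FLTAgent.ModularityLifting.Start

open FLTAgent.DefRing

local notation "Qbar" => AlgebraicClosure ℚ

variable {A B : Type} [CommRing A] [CommRing B] (φ : A →+* B) {ρ : MatRep A}

theorem mapRep_trace (σ : AbsGal) : (mapRep φ ρ σ).trace = φ (ρ σ).trace := by
  simp [Matrix.trace, mapRep_apply]

theorem mapRep_det (σ : AbsGal) : (mapRep φ ρ σ).det = φ (ρ σ).det :=
  (φ.map_det (ρ σ)).symm

theorem mapRep_eq (σ : AbsGal) : mapRep φ ρ σ = φ.mapMatrix (ρ σ) := rfl

theorem unramifiedAt_map {q : ℕ} (h : UnramifiedAt ρ q) : UnramifiedAt (mapRep φ ρ) q :=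
  fun P hP σ hσ => by rw [mapRep_eq, h P hP σ hσ, map_one]

theorem unramifiedAt_map_iff (hφ : Function.Injective φ) {q : ℕ} :
    UnramifiedAt (mapRep φ ρ) q ↔ UnramifiedAt ρ q := by
  refine ⟨fun h P hP σ hσ => ?_, unramifiedAt_map φ⟩
  ext i j
  refine hφ ?_
  rw [← mapRep_apply, h P hP σ hσ]
  by_cases hij : i = j <;> simp [Matrix.one_apply, hij]

theorem steinbergAt_map {q : ℕ} {ε : A} (h : SteinbergAt ρ q ε) :
    SteinbergAt (mapRep φ ρ) q (φ ε) := fun P hP => by
  refine ⟨fun τ hτ => ?_, fun F hF => ?_⟩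
  · rw [mapRep_eq, ← map_one φ.mapMatrix, ← map_sub, ← map_pow, (h P hP).1 τ hτ, map_zero]
  · rw [mapRep_trace, (h P hP).2 F hF, map_mul, map_add, map_one, map_natCast]

theorem strictAt_map {p : ℕ} {ε : A} (h : StrictAt ρ p ε) :
    StrictAt (mapRep φ ρ) p (φ ε) := fun P hP => by
  obtain ⟨g, hg⟩ := h P hP
  refine ⟨Units.map φ.mapMatrix.toMonoidHom g, fun σ hσ => ?_⟩
  have e : ((Units.map φ.mapMatrix.toMonoidHom g : GL (Fin 2) B) : Matrix (Fin 2) (Fin 2) B) *
      mapRep φ ρ σ *
        (((Units.map φ.mapMatrix.toMonoidHom g)⁻¹ : GL (Fin 2) B) : Matrix (Fin 2) (Fin 2) B) =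
      φ.mapMatrix ((g : Matrix (Fin 2) (Fin 2) A) * ρ σ *
        ((g⁻¹ : GL (Fin 2) A) : Matrix (Fin 2) (Fin 2) A)) := by
    rw [map_mul, map_mul]; rfl
  obtain ⟨h1, h2, h3⟩ := hg σ hσ
  rw [e]
  refine ⟨?_, fun hI => ?_, fun hF => ?_⟩ <;> rw [RingHom.mapMatrix_apply, Matrix.map_apply]
  · rw [h1, map_zero]
  · rw [h2 hI, map_one]
  · rw [h3 hF]

theorem detCyclotomic_map {p : ℕ} (h : DetCyclotomic ρ p) : DetCyclotomic (mapRep φ ρ) p := by
  intro n σ a ha
  have h1 := Ideal.mem_map_of_mem φ (h n σ a ha)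
  rw [Ideal.map_span, Set.image_singleton, map_natCast, map_sub, map_natCast] at h1
  rwa [mapRep_det]

theorem absIrreducibleOn_map {k k' : Type} [Field k] [Field k'] (φ : k →+* k') {ρ : MatRep k}
    {G : Subgroup AbsGal} (h : AbsIrreducibleOn ρ G) : AbsIrreducibleOn (mapRep φ ρ) G := by
  intro K _ ι v hv
  refine h K (ι.comp φ) v fun σ hσ => ?_
  obtain ⟨c, hc⟩ := hv σ hσ
  exact ⟨c, hc⟩

theorem exists_finiteLevel {k : Type} [Field k] {ρ : MatRep k} (h : MatCont ρ) :
    ∃ L : IntermediateField ℚ Qbar, FiniteDimensional ℚ L ∧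
      ∀ σ : AbsGal, (∀ x ∈ L, σ x = x) → ρ σ = 1 := by
  obtain ⟨L, hL, h1⟩ := h 1
  refine ⟨L, hL, fun σ hσ => Matrix.ext fun i j => sub_eq_zero.mp ?_⟩
  have := h1 σ hσ i j
  rwa [pow_one, IsLocalRing.maximalIdeal_eq_bot, Ideal.mem_bot, Matrix.sub_apply] at this

theorem flatAt_map {p : ℕ} (h : FlatAt ρ p) : FlatAt (mapRep φ ρ) p := by
  classical
  intro I hI
  have := hI
  set J : Ideal A := I.comap φ with hJ
  let ι : A ⧸ J →+* B ⧸ I := Ideal.quotientMap I φ le_rfl
  have : Finite (A ⧸ J) := Finite.of_injective ι Ideal.quotientMap_injective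
  have := Fintype.ofFinite (B ⧸ I)
  have : Finite (Fin 2 → A ⧸ J) := Pi.finite
  let M := (B ⧸ I) → Fin 2 → A ⧸ J
  let act : AbsGal →* AddMonoid.End M :=
    { toFun := fun σ =>
        { toFun := fun F e => redAct ρ J σ (F e)
          map_zero' := funext fun e => map_zero _
          map_add' := fun F G => funext fun e => map_add _ _ _ }
      map_one' := AddMonoidHom.ext fun F => funext fun e => by
        show redAct ρ J 1 (F e) = F e
        rw [map_one]; rfl
      map_mul' := fun σ τ => AddMonoidHom.ext fun F => funext fun e => by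
        show redAct ρ J (σ * τ) (F e) = redAct ρ J σ (redAct ρ J τ (F e))
        rw [map_mul]; rfl }
  have hM : FiniteFlat.HasFlatModel p act := FiniteFlat.HasFlatModel.of_jointly_injective
    (ι := B ⧸ I) (fun _ => h J inferInstance) (fun e => Pi.evalAddMonoidHom _ e)
    (fun _ _ _ => rfl) fun F G hFG => funext hFG
  let π : M →+ (Fin 2 → B ⧸ I) :=
    { toFun := fun F i => ∑ e, e * ι (F e i)
      map_zero' := funext fun i => show ∑ e : B ⧸ I, e * ι 0 = 0 by simp
      map_add' := fun F G => funext fun i =>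
        show ∑ e, e * ι (F e i + G e i) = ∑ e, e * ι (F e i) + ∑ e, e * ι (G e i) by
          simp [mul_add, Finset.sum_add_distrib] }
  refine hM.of_surjective π (fun σ F => ?_) fun y => ?_
  · funext i
    show ∑ e, e * ι ((Matrix.mulVec ((Ideal.Quotient.mk J).mapMatrix (ρ σ)) (F e)) i) =
      Matrix.mulVec ((Ideal.Quotient.mk I).mapMatrix (mapRep φ ρ σ)) (π F) i
    simp only [Matrix.mulVec, dotProduct, π, AddMonoidHom.coe_mk, ZeroHom.coe_mk,
      RingHom.mapMatrix_apply, Matrix.map_apply, mapRep_apply, map_sum, map_mul, Finset.mul_sum]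
    rw [Finset.sum_comm]
    refine Finset.sum_congr rfl fun j _ => Finset.sum_congr rfl fun e _ => ?_
    rw [show ι (Ideal.Quotient.mk J (ρ σ i j)) = Ideal.Quotient.mk I (φ (ρ σ i j)) from
      Ideal.quotientMap_mk]
    ring
  · refine ⟨fun e i => if y i = e then 1 else 0, funext fun i => ?_⟩
    show ∑ e, e * ι (if y i = e then 1 else 0) = y i
    simp [apply_ite ι]

/-- An involution of determinant `-1` has trace zero. -/
theorem trace_eq_zero {M : Matrix (Fin 2) (Fin 2) A} (h2 : M * M = 1) (hd : M.det = -1) :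
    M.trace = 0 := by
  have h00 := congrFun (congrFun h2 0) 0
  have h01 := congrFun (congrFun h2 0) 1
  have h10 := congrFun (congrFun h2 1) 0
  have h11 := congrFun (congrFun h2 1) 1
  simp [Matrix.mul_apply, Fin.sum_univ_two] at h00 h01 h10 h11
  rw [Matrix.det_fin_two] at hd
  rw [Matrix.trace_fin_two]
  linear_combination -(M 0 0 + M 1 1) * h00 + M 0 0 * (h00 + hd) + M 0 1 * h10

end FLTAgent.ModularityLifting.Start
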