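import Mathlib.RingTheory.WittVector.Complete
import Mathlib.RingTheory.WittVector.Compare
import Mathlib.RingTheory.WittVector.DiscreteValuationRing
import Mathlib.RingTheory.WittVector.Domain
import Mathlib.FieldTheory.Finite.GaloisField
import Mathlib.NumberTheory.Padics.RingHoms
import Mathlib.RingTheory.LocalRing.ResidueField.Basic

/-!
# The coefficient ring of the lifting problem

The Witt vectors of the field with `p²` elements: the unramified quadratic extension of `ℤ_p`, in
whose residue field every quadratic polynomial over `𝔽_p` splits.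
-/

set_option autoImplicit false

noncomputable section

open IsLocalRing Polynomial

namespace FLTAgent.ModularityLifting.Start

variable (p : ℕ) [Fact p.Prime]

/-- The coefficient ring. -/
abbrev Coeff : Type := WittVector p (GaloisField p 2)

theorem maximalIdeal_coeff : maximalIdeal (Coeff p) = Ideal.span {(p : Coeff p)} :=
  (WittVector.irreducible p (k := GaloisField p 2)).maximalIdeal_eq

theorem natCast_mem_maximalIdeal : (p : Coeff p) ∈ maximalIdeal (Coeff p) := by
  rw [maximalIdeal_coeff]
  exact Ideal.mem_span_singleton_self _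

theorem natCast_coeff_ne_zero : (p : Coeff p) ≠ 0 :=
  (WittVector.irreducible p (k := GaloisField p 2)).ne_zero

instance isAdicComplete_coeff : IsAdicComplete (maximalIdeal (Coeff p)) (Coeff p) := by
  rw [maximalIdeal_coeff]
  infer_instance

instance charZero_coeff : CharZero (Coeff p) := by
  refine charZero_of_inj_zero fun n hn => ?_
  by_contra h
  obtain ⟨m, k, hk, rfl⟩ := Nat.exists_eq_pow_mul_and_not_dvd h p (Fact.out : p.Prime).ne_one
  rw [Nat.cast_mul, Nat.cast_pow] at hn
  rcases mul_eq_zero.mp hn with h1 | h1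
  · exact natCast_coeff_ne_zero p (pow_eq_zero_iff'.mp h1).1
  · have h2 := congrArg WittVector.constantCoeff h1
    rw [map_natCast, map_zero] at h2
    exact hk ((CharP.cast_eq_zero_iff (GaloisField p 2) p k).mp h2)

instance charP_residue : CharP (ResidueField (Coeff p)) p :=
  (CharP.charP_iff_prime_eq_zero Fact.out).mpr (by
    rw [← map_natCast (residue (Coeff p)), residue_eq_zero_iff]
    exact natCast_mem_maximalIdeal p)

/-- The residue field is the field with `p²` elements. -/
def residueEquiv : ResidueField (Coeff p) ≃+* GaloisField p 2 :=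
  (Ideal.quotEquivOfEq (maximalIdeal_coeff p)).trans
    (WittVector.quotientPEquiv (p := p) (k := GaloisField p 2))

instance finite_residue : Finite (ResidueField (Coeff p)) :=
  Finite.of_equiv _ (residueEquiv p).symm.toEquiv

theorem card_residue : Nat.card (ResidueField (Coeff p)) = p ^ 2 :=
  (Nat.card_congr (residueEquiv p).toEquiv).trans (GaloisField.card p 2 two_ne_zero)

/-- The inclusion of the `p`-adic integers. -/
def coeffMap : ℤ_[p] →+* Coeff p :=
  (WittVector.map (algebraMap (ZMod p) (GaloisField p 2))).comp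
    (WittVector.equiv (p := p)).symm.toRingHom

instance isLocalHom_coeffMap : IsLocalHom (coeffMap p) := ⟨fun x hx => by
  by_contra h
  have hx' : x ∈ maximalIdeal ℤ_[p] := h
  rw [PadicInt.maximalIdeal_eq_span_p, Ideal.mem_span_singleton] at hx'
  obtain ⟨y, rfl⟩ := hx'
  rw [map_mul, map_natCast, IsUnit.mul_iff] at hx
  exact (maximalIdeal.isMaximal (Coeff p)).ne_top
    (Ideal.eq_top_of_isUnit_mem _ (natCast_mem_maximalIdeal p) hx.1)⟩

/-- The inclusion of the residue fields. -/
abbrev resMap : ZMod p →+* ResidueField (Coeff p) := ZMod.castHom (dvd_refl p) _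

theorem residue_comp_coeffMap :
    (residue (Coeff p)).comp (coeffMap p) = (resMap p).comp PadicInt.toZMod := by
  refine RingHom.ext fun x => ?_
  have hx : x - ((PadicInt.toZMod x).val : ℤ_[p]) ∈ maximalIdeal ℤ_[p] := by
    rw [← PadicInt.ker_toZMod, RingHom.mem_ker, map_sub, map_natCast, ZMod.natCast_zmod_val,
      sub_self]
  have h : residue (Coeff p) (coeffMap p (x - ((PadicInt.toZMod x).val : ℤ_[p]))) = 0 :=
    (residue_eq_zero_iff _).mpr fun hu => hx (isUnit_of_map_unit (coeffMap p) _ hu)
  rw [map_sub, map_sub, map_natCast, map_natCast, sub_eq_zero] at h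
  rw [RingHom.comp_apply, RingHom.comp_apply, h]
  simp [ZMod.castHom_apply, ZMod.cast_eq_val]

/-- Quadratic polynomials over the prime field split in a field with `p²` elements. -/
theorem exists_add_eq_mul_eq {κ : Type} [Field κ] [Finite κ] [CharP κ p]
    (hκ : Nat.card κ = p ^ 2) (a b : ZMod p) :
    ∃ α β : κ, α + β = ZMod.castHom (dvd_refl p) κ a ∧ α * β = ZMod.castHom (dvd_refl p) κ b := by
  have : Fintype κ := Fintype.ofFinite κ
  have : ExpChar κ p := ExpChar.prime Fact.out
  set K := AlgebraicClosure κ
  have : CharP K p := charP_of_injective_algebraMap (algebraMap κ K).injective p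
  have : ExpChar K p := ExpChar.prime Fact.out
  set j := ZMod.castHom (dvd_refl p) κ
  set g : K → K := fun x => x ^ 2 - algebraMap κ K (j a) * x + algebraMap κ K (j b)
  obtain ⟨α, hα⟩ : ∃ α : K, g α = 0 := by
    obtain ⟨α, hα⟩ := IsAlgClosed.exists_root
      (X ^ 2 - C (algebraMap κ K (j a)) * X + C (algebraMap κ K (j b))) (by
        have h2 : (X ^ 2 - C (algebraMap κ K (j a)) * X + C (algebraMap κ K (j b))).degree = 2 := by
          compute_degree!
        rw [h2]
        decide)
    exact ⟨α, by simpa [g, IsRoot, Polynomial.eval] using hα⟩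
  have hfix : ∀ c : ZMod p, (algebraMap κ K (j c)) ^ p = algebraMap κ K (j c) := fun c => by
    rw [← map_pow, ← map_pow, ZMod.pow_card]
  have hfrob : ∀ x, g x = 0 → g (x ^ p) = 0 := fun x hx => by
    have h : (g x) ^ p = 0 := by rw [hx, zero_pow (Fact.out : p.Prime).ne_zero]
    simp only [g] at h ⊢
    rw [add_pow_expChar, sub_pow_expChar, mul_pow, hfix, hfix, ← pow_mul, mul_comm 2 p,
      pow_mul] at h
    exact h
  set β := algebraMap κ K (j a) - α with hβ
  have hroots : ∀ x, g x = 0 → x = α ∨ x = β := fun x hx => by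
    have h : (x - α) * (x - β) = 0 := by
      simp only [g] at hx hα
      rw [hβ]; linear_combination hx - hα
    rcases mul_eq_zero.mp h with h | h
    · exact Or.inl (sub_eq_zero.mp h)
    · exact Or.inr (sub_eq_zero.mp h)
  have hinj : Function.Injective fun x : K => x ^ p := fun x y h => by
    have : (x - y) ^ p = 0 := by
      rw [sub_pow_expChar]
      exact sub_eq_zero.mpr h
    exact sub_eq_zero.mp (eq_zero_of_pow_eq_zero this)
  have hα2 : α ^ p ^ 2 = α := by
    rw [pow_two, pow_mul]
    rcases hroots _ (hfrob α hα) with h | h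
    · rw [h, h]
    · rcases hroots _ (hfrob _ (hfrob α hα)) with h2 | h2
      · exact h2
      · rw [h2, ← h]
        exact hinj (show (α ^ p) ^ p = α ^ p by rw [h2, h])
  obtain ⟨α₀, rfl⟩ : ∃ α₀ : κ, algebraMap κ K α₀ = α := by
    set F : K[X] := X ^ p ^ 2 - X
    have h1p : 1 < p ^ 2 := Nat.one_lt_pow two_ne_zero (Fact.out : p.Prime).one_lt
    have hF0 : F ≠ 0 := FiniteField.X_pow_card_sub_X_ne_zero K h1p
    classical
    have hsub : Finset.univ.image (algebraMap κ K) ⊆ F.roots.toFinset := by
      intro x hx
      obtain ⟨y, -, rfl⟩ := Finset.mem_image.mp hx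
      rw [Multiset.mem_toFinset, mem_roots hF0]
      simp [F, IsRoot, ← map_pow, ← hκ, Nat.card_eq_fintype_card, FiniteField.pow_card]
    have hcard : F.roots.toFinset.card ≤ (Finset.univ.image (algebraMap κ K)).card := by
      rw [Finset.card_image_of_injective _ (algebraMap κ K).injective, Finset.card_univ,
        ← Nat.card_eq_fintype_card, hκ, ← FiniteField.X_pow_card_sub_X_natDegree_eq K h1p]
      exact (Multiset.toFinset_card_le _).trans (card_roots' _)
    have hmem : α ∈ Finset.univ.image (algebraMap κ K) := by
      rw [Finset.eq_of_subset_of_card_le hsub hcard, Multiset.mem_toFinset, mem_roots hF0]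
      simp [F, IsRoot, hα2]
    obtain ⟨α₀, -, h⟩ := Finset.mem_image.mp hmem
    exact ⟨α₀, h⟩
  refine ⟨α₀, j a - α₀, by ring, (algebraMap κ K).injective ?_⟩
  simp only [g] at hα
  rw [map_mul, map_sub]
  linear_combination -hα

end FLTAgent.ModularityLifting.Start
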