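import Fermat.Agent.ModularityLifting.Start.Units
import Fermat.Agent.LocalDuality.Kummer
import Fermat.Agent.TWPrimes.LocalPlace
import Fermat.Agent.TWPrimes.Frame
import Fermat.Agent.FiniteFlat.Model
import Mathlib.LinearAlgebra.Dual.Lemmas

/-!
# Three elements of the decomposition group at `p` separating cyclotomic cocycles

By Hilbert 90 a cocycle of the decomposition group at `p` with values in `μ_p` is the Kummer
cocycle of `p ^ i (1 + p) ^ j` plus a coboundary.
-/

set_option autoImplicit false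

noncomputable section

open groupCohomology

namespace FLTAgent.ModularityLifting.Start

open FLTAgent.LocalDuality FLTAgent.Density

variable (p : ℕ) [Fact p.Prime]

/-- The mod `p` cyclotomic character on the local group. -/
def locChar : LocalGal p →* (ZMod p)ˣ := (ExtCitation.cycloChar p).comp (toGlobal p)

theorem apply_eq_pow_cycloChar {σ : GalQ} {t : AlgebraicClosure ℚ} (ht : t ^ p = 1) :
    σ t = t ^ ((ExtCitation.cycloChar p σ : (ZMod p)ˣ) : ZMod p).val := by
  have : NeZero p := ⟨(Fact.out : p.Prime).ne_zero⟩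
  rw [← TWPrimes.cyclo_eq_cycloChar]
  exact TWPrimes.cyclo_spec p σ ht

variable {p}

/-- An element fixed by the local group is rational. -/
theorem exists_algebraMap_eq {x : PadicAlgCl p} (hx : ∀ g : LocalGal p, g x = x) :
    ∃ w : ℚ_[p], algebraMap ℚ_[p] (PadicAlgCl p) w = x :=
  (InfiniteGalois.mem_range_algebraMap_iff_fixed x).mpr hx

/-- Powers of a root of unity, exponents modulo `p`. -/
def zp (ζ : PadicAlgCl p) (k : ZMod p) : PadicAlgCl p := ζ ^ k.val

variable {ζ : PadicAlgCl p} (hζ : IsPrimitiveRoot ζ p)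

include hζ

theorem zp_natCast (n : ℕ) : zp ζ (n : ZMod p) = ζ ^ n := by
  rw [zp, ZMod.val_natCast, ← pow_eq_pow_mod n hζ.pow_eq_one]

theorem zp_add (a b : ZMod p) : zp ζ (a + b) = zp ζ a * zp ζ b := by
  rw [← ZMod.natCast_zmod_val a, ← ZMod.natCast_zmod_val b, ← Nat.cast_add, zp_natCast hζ,
    zp_natCast hζ, zp_natCast hζ, pow_add]

theorem zp_zero : zp ζ (0 : ZMod p) = 1 := by simpa using zp_natCast hζ 0

theorem zp_pow (k : ZMod p) (n : ℕ) : zp ζ k ^ n = zp ζ ((n : ZMod p) * k) := by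
  rw [← ZMod.natCast_zmod_val k, ← Nat.cast_mul, zp_natCast hζ, zp_natCast hζ, ← pow_mul,
    mul_comm]

theorem zp_ne_zero (k : ZMod p) : zp ζ k ≠ 0 :=
  pow_ne_zero _ (hζ.ne_zero (Fact.out : p.Prime).ne_zero)

theorem zp_injective : Function.Injective (zp ζ) := fun a b h => by
  have : NeZero p := ⟨(Fact.out : p.Prime).ne_zero⟩
  exact ZMod.val_injective p (hζ.pow_inj a.val_lt b.val_lt h)

theorem exists_zp_mul {x y : PadicAlgCl p} (hx : x ≠ 0) (h : y ^ p = x ^ p) :
    ∃ k, y = zp ζ k * x := by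
  have : NeZero p := ⟨(Fact.out : p.Prime).ne_zero⟩
  obtain ⟨i, -, hi⟩ := hζ.eq_pow_of_pow_eq_one (ξ := y / x)
    (by rw [div_pow, h, div_self (pow_ne_zero _ hx)])
  exact ⟨i, by rw [zp_natCast hζ, hi, div_mul_cancel₀ _ hx]⟩

theorem apply_zp {g : LocalGal p} (hg : g ζ = zp ζ (locChar p g : ZMod p)) (k : ZMod p) :
    g (zp ζ k) = zp ζ ((locChar p g : ZMod p) * k) := by
  rw [show zp ζ k = ζ ^ k.val from rfl, map_pow, hg, zp_pow hζ, ZMod.natCast_zmod_val, mul_comm]

/-- The Kummer exponents of an element whose `p`-th power is rational. -/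
theorem exists_kummer {x : PadicAlgCl p} (hx : x ≠ 0) {a : ℚ_[p]}
    (ha : x ^ p = algebraMap ℚ_[p] (PadicAlgCl p) a) :
    ∃ k : LocalGal p → ZMod p, ∀ g, g x = zp ζ (k g) * x := by
  have h : ∀ g : LocalGal p, ∃ k, g x = zp ζ k * x := fun g =>
    exists_zp_mul hζ hx (by rw [← map_pow, ha, AlgEquiv.commutes])
  choose k hk using h
  exact ⟨k, hk⟩

theorem kummer_mul (hchar : ∀ g : LocalGal p, g ζ = zp ζ (locChar p g : ZMod p))
    {x : PadicAlgCl p} (hx : x ≠ 0) {k : LocalGal p → ZMod p}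
    (hk : ∀ g, g x = zp ζ (k g) * x) (g h : LocalGal p) :
    k (g * h) = k g + (locChar p g : ZMod p) * k h := by
  refine zp_injective hζ (mul_right_cancel₀ hx ?_)
  rw [← hk, AlgEquiv.mul_apply, hk h, map_mul, apply_zp hζ (hchar g), hk g, zp_add hζ]
  ring

omit hζ

/-- Cocycles vanishing on the kernel of the character are coboundaries. -/
theorem exists_coboundary (K : LocalGal p → ZMod p)
    (hK : ∀ g h, K (g * h) = K g + (locChar p g : ZMod p) * K h)
    (h0 : ∀ g, locChar p g = 1 → K g = 0) {e : LocalGal p} (he : locChar p e ≠ 1) :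
    ∃ l : ZMod p, ∀ g, K g = l * ((locChar p g : ZMod p) - 1) := by
  have he' : (locChar p e : ZMod p) - 1 ≠ 0 :=
    sub_ne_zero.mpr fun h => he (Units.ext h)
  refine ⟨K e / ((locChar p e : ZMod p) - 1), fun g => ?_⟩
  have hs : locChar p (g * e * (e * g)⁻¹) = 1 := by
    rw [map_mul, map_inv, map_mul, map_mul, mul_comm (locChar p g), mul_inv_cancel]
  have h1 := hK (g * e * (e * g)⁻¹) (e * g)
  rw [inv_mul_cancel_right, h0 _ hs, hs, Units.val_one, one_mul, zero_add, hK, hK] at h1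
  field_simp
  linear_combination -h1

/-- A primitive root of unity acted on by the cyclotomic character. -/
theorem exists_zeta : ∃ ζ : PadicAlgCl p, IsPrimitiveRoot ζ p ∧
    ∀ g : LocalGal p, g ζ = zp ζ (locChar p g : ZMod p) := by
  have : NeZero p := ⟨(Fact.out : p.Prime).ne_zero⟩
  obtain ⟨z, hz⟩ := HasEnoughRootsOfUnity.exists_primitiveRoot (AlgebraicClosure ℚ) p
  refine ⟨padicEmbedding p z, hz.map_of_injective (f := padicEmbedding p)
    (padicEmbedding p).toRingHom.injective, fun g => ?_⟩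
  rw [← padicEmbedding_localGaloisToGlobal, zp, ← map_pow]
  exact congrArg _ (apply_eq_pow_cycloChar p hz.pow_eq_one)

/-- The character of the local group is nontrivial. -/
theorem exists_locChar_ne_one (hp2 : p ≠ 2) : ∃ g : LocalGal p, locChar p g ≠ 1 := by
  have hp : p.Prime := Fact.out
  obtain ⟨ζ, hζ, hchar⟩ := exists_zeta (p := p)
  by_contra hcon
  push Not at hcon
  obtain ⟨w, hw⟩ := exists_algebraMap_eq (x := ζ) fun g => by
    rw [hchar, hcon, Units.val_one, zp, ZMod.val_one, pow_one]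
  have hw1 : w ^ p = 1 := (algebraMap ℚ_[p] (PadicAlgCl p)).injective
    (by rw [map_pow, hw, hζ.pow_eq_one, map_one])
  have hn : ‖w‖ = 1 := by
    have := congrArg norm hw1
    rw [norm_pow, norm_one] at this
    exact (pow_eq_one_iff_of_nonneg (norm_nonneg _) hp.ne_zero).mp this
  set y : ℤ_[p] := ⟨w, hn.le⟩
  have hy : y ^ p = 1 := PadicInt.ext (by push_cast; exact hw1)
  have hy1 : (p : ℤ_[p]) ∣ y - 1 := by
    have := congrArg PadicInt.toZMod hy
    rw [map_pow, ZMod.pow_card, map_one] at this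
    rw [← Ideal.mem_span_singleton, ← PadicInt.maximalIdeal_eq_span_p, ← PadicInt.ker_toZMod,
      RingHom.mem_ker, map_sub, map_one, this, sub_self]
  obtain ⟨s, hs⟩ := hy1
  obtain ⟨c, hc⟩ := exists_one_add_pow ((p : ℤ_[p]) * s) p
  obtain ⟨m, hm⟩ := choose_two_eq (p := p) hp2
  rw [show 1 + (p : ℤ_[p]) * s = y by linear_combination -hs, hy, hm, Nat.cast_mul] at hc
  have h2 : ((p : ℤ_[p]) ^ 2 * s) * (1 + p * (m * s + s ^ 2 * c)) = 0 := by
    linear_combination -hc
  have hs0 : s = 0 := by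
    rcases mul_eq_zero.mp h2 with h | h
    · exact (mul_eq_zero.mp h).resolve_left (pow_ne_zero _ PadicInt.prime_p.ne_zero)
    · exact absurd (isUnit_of_dvd_one ⟨-(m * s + s ^ 2 * c), by linear_combination h⟩)
        PadicInt.prime_p.not_isUnit
  rw [hs0, mul_zero, sub_eq_zero] at hs
  have hw2 : w = 1 := congrArg Subtype.val hs
  rw [hw2, map_one] at hw
  exact hζ.ne_one hp.one_lt hw.symm

/-- **Separation**: three local elements such that a cyclotomic cocycle with values in `ZMod p`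
vanishing at all three is zero. -/
theorem exists_local_elements (hp2 : p ≠ 2) {e₁ : LocalGal p} (he₁ : locChar p e₁ = 1)
    {x : PadicAlgCl p} (hxp : x ^ p = (p : PadicAlgCl p)) (hne : e₁ x ≠ x) :
    ∃ e₀ e₂ : LocalGal p, locChar p e₀ ≠ 1 ∧
      ∀ K : LocalGal p → ZMod p, IsLevelConstant₁ (toGlobal p) K →
        (∀ g h, K (g * h) = K g + (locChar p g : ZMod p) * K h) →
        K e₀ = 0 → K e₁ = 0 → K e₂ = 0 → ∀ g, K g = 0 := by
  have hp : p.Prime := Fact.out
  obtain ⟨e₀, he₀⟩ := exists_locChar_ne_one hp2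
  obtain ⟨ζ, hζ, hchar⟩ := exists_zeta (p := p)
  obtain ⟨υ, hυ⟩ := IsAlgClosed.exists_pow_nat_eq (1 + (p : PadicAlgCl p)) hp.pos
  have hp0 : (p : PadicAlgCl p) ≠ 0 := Nat.cast_ne_zero.mpr hp.ne_zero
  have hx0 : x ≠ 0 := fun h => hp0 (by rw [← hxp, h, zero_pow hp.ne_zero])
  have hυ0 : υ ≠ 0 := fun h => by
    rw [h, zero_pow hp.ne_zero] at hυ
    exact Nat.cast_add_one_ne_zero (R := PadicAlgCl p) p (by rw [add_comm]; exact hυ.symm)
  obtain ⟨kp, hkp⟩ := exists_kummer hζ hx0 (a := (p : ℚ_[p])) (by rw [hxp, map_natCast])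
  obtain ⟨ku, hku⟩ := exists_kummer hζ hυ0 (a := 1 + (p : ℚ_[p]))
    (by rw [hυ, map_add, map_one, map_natCast])
  set a := kp e₁ with ha
  set b := ku e₁ with hb
  have ha0 : a ≠ 0 := fun h => hne (by rw [hkp, ← ha, h, zp_zero hζ, one_mul])
  have hinj := (algebraMap ℚ_[p] (PadicAlgCl p)).injective
  obtain ⟨e₂, he₂, hind⟩ : ∃ e₂, locChar p e₂ = 1 ∧ a * ku e₂ - b * kp e₂ ≠ 0 := by
    by_contra hcon
    push Not at hcon
    obtain ⟨l, hl⟩ := exists_coboundary (fun g => a * ku g - b * kp g) (fun g h => by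
      rw [kummer_mul hζ hchar hυ0 hku, kummer_mul hζ hchar hx0 hkp]; ring) hcon he₀
    obtain ⟨w, hw⟩ := exists_algebraMap_eq (x := zp ζ (-l) * υ ^ a.val * x ^ (-b).val) fun g => by
      rw [map_mul, map_mul, map_pow, map_pow, apply_zp hζ (hchar g), hku, hkp, mul_pow, mul_pow,
        zp_pow hζ, zp_pow hζ, ZMod.natCast_zmod_val, ZMod.natCast_zmod_val,
        show (locChar p g : ZMod p) * -l = -l + -(a * ku g - b * kp g) by
          linear_combination hl g, zp_add hζ]
      have h1 : zp ζ (-(a * ku g - b * kp g)) * zp ζ (a * ku g) * zp ζ (-b * kp g) = 1 := by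
        rw [← zp_add hζ, ← zp_add hζ, ← zp_zero hζ]
        congr 1
        ring
      linear_combination (zp ζ (-l) * υ ^ a.val * x ^ (-b).val) * h1
    have hz : zp ζ (-l) ^ p = 1 := by
      rw [zp_pow hζ, ZMod.natCast_self, zero_mul, zp_zero hζ]
    have h2 : (p : ℚ_[p]) ^ (-b).val * (1 + p) ^ a.val = w ^ p := hinj (by
      rw [map_pow, hw, mul_pow, mul_pow, hz, one_mul, ← pow_mul, ← pow_mul, mul_comm a.val,
        mul_comm (-b).val, pow_mul, pow_mul, hυ, hxp, map_mul, map_pow, map_pow, map_add, map_one,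
        map_natCast]
      ring)
    have h3 := (dvd_of_mul_eq_pow hp2 h2).2
    rw [← ZMod.natCast_eq_zero_iff, ZMod.natCast_zmod_val] at h3
    exact ha0 h3
  refine ⟨e₀, e₂, he₀, fun K hlev hK h0 h1 h2 => ?_⟩
  let f : LocalGal p → (PadicAlgCl p)ˣ := fun g => Units.mk0 (zp ζ (K g)) (zp_ne_zero hζ _)
  obtain ⟨F, hF, hFK⟩ := hlev
  obtain ⟨m, hm⟩ := hilbert90 (MonoidHom.id (LocalGal p)) f
    (fun g h => Units.ext (by
      show zp ζ (K (g * h)) = g (zp ζ (K h)) * zp ζ (K g)
      rw [hK, zp_add hζ, apply_zp hζ (hchar g), mul_comm]))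
    ⟨F, hF, fun g s hs => Units.ext (congrArg (zp ζ) (hFK g s hs))⟩
  have hgm : ∀ g : LocalGal p, g (m : PadicAlgCl p) = zp ζ (K g) * m := fun g => by
    have := congrArg Units.val (eq_div_iff_mul_eq'.mp (hm g))
    simpa [f] using this.symm
  obtain ⟨r, hr⟩ := exists_algebraMap_eq (x := (m : PadicAlgCl p) ^ p) fun g => by
    rw [map_pow, hgm, mul_pow, zp_pow hζ, ZMod.natCast_self, zero_mul, zp_zero hζ, one_mul]
  have hr0 : r ≠ 0 := fun h => pow_ne_zero p m.ne_zero (by rw [← hr, h, map_zero])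
  obtain ⟨i₀, j, w₀, hw₀⟩ := exists_eq_mul_pow hp2 hr0
  obtain ⟨i, w, hw⟩ : ∃ (i : ℕ) (w : ℚ_[p]), r = (p : ℚ_[p]) ^ i * (1 + p) ^ j * w ^ p := by
    obtain ⟨i, hi⟩ :=
      Int.eq_ofNat_of_zero_le (Int.emod_nonneg i₀ (Int.natCast_ne_zero.mpr hp.ne_zero))
    refine ⟨i, (p : ℚ_[p]) ^ (i₀ / p) * w₀, ?_⟩
    rw [hw₀, mul_pow, ← zpow_natCast ((p : ℚ_[p]) ^ (i₀ / p)) p, ← zpow_mul]
    conv_lhs => rw [← Int.emod_add_ediv_mul i₀ p, zpow_add₀ (Nat.cast_ne_zero.mpr hp.ne_zero), hi,
      zpow_natCast]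
    ring
  set y := x ^ i * υ ^ j * algebraMap ℚ_[p] (PadicAlgCl p) w with hy
  have hyp : (m : PadicAlgCl p) ^ p = y ^ p := by
    rw [← hr, hw, hy, mul_pow, mul_pow, ← pow_mul, ← pow_mul, mul_comm i, mul_comm j, pow_mul,
      pow_mul, hxp, hυ, map_mul, map_mul, map_pow, map_pow, map_pow, map_add, map_one, map_natCast]
  have hy0 : y ≠ 0 := fun h =>
    m.ne_zero (eq_zero_of_pow_eq_zero (by rw [hyp, h, zero_pow hp.ne_zero]))
  obtain ⟨l, hl⟩ := exists_zp_mul hζ hy0 hyp
  have key : ∀ g : LocalGal p,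
      K g = l * ((locChar p g : ZMod p) - 1) + i * kp g + j * ku g := by
    intro g
    refine zp_injective hζ (mul_right_cancel₀ m.ne_zero ?_)
    rw [← hgm, hl, hy, map_mul, map_mul, map_mul, map_pow, map_pow, apply_zp hζ (hchar g), hkp, hku,
      AlgEquiv.commutes, mul_pow, mul_pow, zp_pow hζ, zp_pow hζ]
    have h1 : zp ζ (l * ((locChar p g : ZMod p) - 1) + i * kp g + j * ku g) * zp ζ l =
        zp ζ ((locChar p g : ZMod p) * l) * zp ζ (i * kp g) * zp ζ (j * ku g) := by
      rw [← zp_add hζ, ← zp_add hζ, ← zp_add hζ]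
      congr 1
      ring
    linear_combination -(x ^ i * υ ^ j * algebraMap ℚ_[p] (PadicAlgCl p) w) * h1
  rw [key, he₁, Units.val_one, sub_self, mul_zero, zero_add, ← ha, ← hb] at h1
  rw [key, he₂, Units.val_one, sub_self, mul_zero, zero_add] at h2
  have hi : (i : ZMod p) = 0 := (mul_eq_zero.mp (show (i : ZMod p) *
      (a * ku e₂ - b * kp e₂) = 0 by linear_combination ku e₂ * h1 - b * h2)).resolve_right hind
  have hj : (j : ZMod p) = 0 := (mul_eq_zero.mp (show (j : ZMod p) *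
      (a * ku e₂ - b * kp e₂) = 0 by linear_combination a * h2 - kp e₂ * h1)).resolve_right hind
  rw [key, hi, hj, zero_mul, zero_mul, add_zero, add_zero] at h0
  have hl0 : l = 0 := (mul_eq_zero.mp h0).resolve_right
    (sub_ne_zero.mpr fun h => he₀ (Units.ext h))
  intro g
  rw [key, hi, hj, hl0, zero_mul, zero_mul, zero_mul, add_zero, add_zero]

/-- The statement that some element at `p` kills flat modules and moves a `p`-th root of `p`. -/
def KillsFlatInput (p : ℕ) : Prop :=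
  ∀ P : ValuationSubring (AlgebraicClosure ℚ), P.LiesOverPrime p →
    ∃ σ ∈ P.decompositionSubgroup ℚ, (∀ μ : AlgebraicClosure ℚ, μ ^ p = 1 → σ μ = μ) ∧
      (∃ x : AlgebraicClosure ℚ, x ^ p = (p : AlgebraicClosure ℚ) ∧ σ x ≠ x) ∧
      ∀ (M : Type) [AddCommGroup M] [Finite M] (act : GalQ →* AddMonoid.End M),
        (∀ x : M, p • x = 0) → FiniteFlat.HasFlatModel p act → act σ = 1

/-- **Three separating elements** of the decomposition group of `padicPlace p`. -/
theorem exists_separating (hp2 : p ≠ 2) (hkill : KillsFlatInput p) :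
    ∃ e : Fin 3 → GalQ, (∀ i, e i ∈ (padicPlace p).decompositionSubgroup ℚ) ∧
      ExtCitation.cycloChar p (e 0) ≠ 1 ∧
      (∀ (M : Type) [AddCommGroup M] [Finite M] (act : GalQ →* AddMonoid.End M),
        (∀ x : M, p • x = 0) → FiniteFlat.HasFlatModel p act → act (e 1) = 1) ∧
      ∀ (V : Type) [AddCommGroup V] [Module (ZMod p) V] (c : GalQ → V),
        (∀ g ∈ (padicPlace p).decompositionSubgroup ℚ,
          ∀ h ∈ (padicPlace p).decompositionSubgroup ℚ,
            c (g * h) = c g + (ExtCitation.cycloChar p g : ZMod p) • c h) →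
        (∃ L : IntermediateField ℚ (AlgebraicClosure ℚ), FiniteDimensional ℚ L ∧
          ∀ g : GalQ, (∀ x ∈ L, g x = x) → c g = 0) →
        (∀ i, c (e i) = 0) → ∀ g ∈ (padicPlace p).decompositionSubgroup ℚ, c g = 0 := by
  obtain ⟨σ, hσ, hμ, ⟨x, hxp, hx⟩, hflat⟩ := hkill _ (TWPrimes.padicPlace_liesOverPrime p)
  obtain ⟨τ, hτ⟩ := TWPrimes.exists_toGlobal p hσ
  have : NeZero p := ⟨(Fact.out : p.Prime).ne_zero⟩
  have he1 : ExtCitation.cycloChar p σ = 1 := by
    obtain ⟨z, hz⟩ := HasEnoughRootsOfUnity.exists_primitiveRoot (AlgebraicClosure ℚ) p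
    have h := apply_eq_pow_cycloChar p (σ := σ) hz.pow_eq_one
    rw [hμ z hz.pow_eq_one] at h
    have h2 := hz.pow_inj (Fact.out : p.Prime).one_lt (ZMod.val_lt _) ((pow_one z).trans h)
    exact Units.ext (ZMod.val_injective p (by rw [← h2, Units.val_one, ZMod.val_one]))
  obtain ⟨e₀, e₂, he₀, hsep⟩ := exists_local_elements hp2 (e₁ := τ)
    (show ExtCitation.cycloChar p (toGlobal p τ) = 1 by rw [hτ, he1])
    (x := padicEmbedding p x) (by rw [← map_pow, hxp, map_natCast]) (by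
      rw [← padicEmbedding_localGaloisToGlobal]
      intro h
      exact hx (hτ ▸ (padicEmbedding p).toRingHom.injective h))
  have hD : ∀ g : LocalGal p, toGlobal p g ∈ (padicPlace p).decompositionSubgroup ℚ :=
    localGaloisToGlobal_mem_decompositionSubgroup p
  refine ⟨![toGlobal p e₀, σ, toGlobal p e₂], fun i => by
    fin_cases i <;> [exact hD _; exact hσ; exact hD _],
    he₀, hflat, fun V _ _ c hc hlev hzero g hg => ?_⟩
  obtain ⟨g, rfl⟩ := TWPrimes.exists_toGlobal p hg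
  refine (Module.forall_dual_apply_eq_zero_iff (ZMod p) _).mp fun φ => ?_
  obtain ⟨L, hL, hL0⟩ := hlev
  have hK : ∀ a b : LocalGal p, φ (c (toGlobal p (a * b))) =
      φ (c (toGlobal p a)) + (locChar p a : ZMod p) * φ (c (toGlobal p b)) := fun a b => by
    rw [map_mul, hc _ (hD a) _ (hD b), map_add, map_smul, smul_eq_mul]
    rfl
  refine hsep (fun a => φ (c (toGlobal p a))) ⟨L, hL, fun a s hs => ?_⟩ hK
    (by simpa using congrArg φ (hzero 0))
    (by simpa [hτ] using congrArg φ (hzero 1))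
    (by simpa using congrArg φ (hzero 2)) g
  show φ (c (toGlobal p (a * s))) = φ (c (toGlobal p a))
  rw [hK, hL0 (toGlobal p s) fun y hy => (IntermediateField.mem_fixingSubgroup_iff _ _).mp
    (mem_levelSubgroup _ |>.mp hs) y hy, map_zero, mul_zero, add_zero]

end FLTAgent.ModularityLifting.Start
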