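import Fermat.Agent.Eigenforms.Oldforms
import Fermat.Agent.Eigenforms.Character
import Fermat.Agent.MFIntegral.IntegralStructure
import Fermat.Agent.TateLocal.Exists
import Fermat.Prelude.Def_WeierstrassCurve_PeuRamifiee
import Fermat.Prelude.Def_FLTPrelim_ModularRep

/-!
# The minimal level of a semistable curve and residual modularity at it

The bad primes split into the minimal ones and those at which the level is raised;
`residual_minimal` moves residual modularity to the minimal level given the three lowering inputs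
(`LowerSquareInput`, `LowerAtPInput`, `LowerUnramifiedInput`).
-/

set_option autoImplicit false

noncomputable section

open WeierstrassCurve ModularFormClass CongruenceSubgroup
open scoped WeierstrassCurve.Affine

namespace FLTAgent.ModularityLifting.Start

local notation "Qbar" => AlgebraicClosure ℚ

variable (p : ℕ) (W : WeierstrassCurve ℤ)

/-- The primes of bad reduction. -/
def badPrimes : Finset ℕ := W.Δ.natAbs.primeFactors

/-- The primes of the minimal level: residually ramified, or not peu ramifié at `p`. -/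
def IsMinimalPrime (v : ℕ) : Prop :=
  (v ≠ p ∧ ¬ WeierstrassCurve.Affine.Point.GaloisRepUnramifiedAt (K := Qbar) ℚ
      (W.map (Int.castRingHom ℚ)) p v) ∨
    (v = p ∧ ¬ (W.map (Int.castRingHom ℚ)).IsPeuRamifieeAt p p)

open scoped Classical in
/-- The primes of the minimal level. -/
def minimalPrimes : Finset ℕ := (badPrimes W).filter (IsMinimalPrime p W)

open scoped Classical in
/-- The primes at which the level is raised. -/
def raisePrimes : Finset ℕ := (badPrimes W).filter fun v => ¬ IsMinimalPrime p W v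

variable {p W}

/-- The bad primes are the prime divisors of the discriminant. -/
theorem mem_badPrimes (hΔ : W.Δ ≠ 0) {v : ℕ} :
    v ∈ badPrimes W ↔ v.Prime ∧ (v : ℤ) ∣ W.Δ := by
  rw [badPrimes, Nat.mem_primeFactors]
  simp [Int.natCast_dvd, hΔ]

theorem mem_minimalPrimes (hΔ : W.Δ ≠ 0) {v : ℕ} :
    v ∈ minimalPrimes p W ↔ v.Prime ∧ (v : ℤ) ∣ W.Δ ∧ IsMinimalPrime p W v := by
  classical
  rw [minimalPrimes, Finset.mem_filter, mem_badPrimes hΔ, and_assoc]

theorem minimalPrimes_union_raisePrimes :
    minimalPrimes p W ∪ raisePrimes p W = badPrimes W := by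
  classical
  exact Finset.filter_union_filter_not_eq _ _

theorem disjoint_minimalPrimes_raisePrimes :
    Disjoint (minimalPrimes p W) (raisePrimes p W) := by
  classical
  exact Finset.disjoint_filter_filter_not _ _ _

/-- A residually unramified curve at a good prime. -/
theorem galoisRepUnramifiedAt_of_good [Fact p.Prime] (hΔ : W.Δ ≠ 0) {v : ℕ} (hv : v.Prime)
    (hvp : v ≠ p) (hgood : W.IsGoodPrimeFor v) :
    WeierstrassCurve.Affine.Point.GaloisRepUnramifiedAt (K := Qbar) ℚ
      (W.map (Int.castRingHom ℚ)) p v := by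
  refine (galoisRepUnramifiedAt_iff p W hΔ v).mpr fun P hP σ hσ => ?_
  rw [DefRing.mapRep, MonoidHom.comp_apply,
    ConductorMatch.tateRep_eq_one_of_good W hΔ hv hgood hvp hP hσ, map_one]

/-- Residual modularity passes to multiples of the level. -/
theorem residual_of_dvd {M N : ℕ} [NeZero M] [NeZero N] (h : M ∣ N)
    (hres : W.IsResiduallyModularOfLevel p M) : W.IsResiduallyModularOfLevel p N := by
  obtain ⟨f, 𝔪, hf, hmax, hpm, hfa⟩ := hres
  obtain ⟨g, hg, hgc⟩ := Eigenforms.exists_eigenform_level_mul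
    (MFIntegral.hasIntegralStructure N 2) h hf
  refine ⟨g, 𝔪, hg, hmax, hpm, fun ℓ hℓ hgood hℓN hℓp => ?_⟩
  obtain ⟨a, ha, ha'⟩ := hfa ℓ hℓ hgood (fun hd => hℓN (hd.trans h)) hℓp
  exact ⟨a, ha.trans (hgc ℓ hℓ hℓN).symm, ha'⟩

variable (p W)

/-- The statement of removing a square from the level. -/
def LowerSquareInput : Prop :=
  ∀ M q : ℕ, q.Prime → q ≠ p → q ^ 2 ∣ M → ¬ q ^ 3 ∣ M →
    W.IsResiduallyModularOfLevel p M → W.IsResiduallyModularOfLevel p (M / q)

/-- The statement of removing `p` from the level. -/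
def LowerAtPInput : Prop :=
  ∀ M : ℕ, Squarefree M → p ∣ M →
    (W.IsGoodPrimeFor p ∨ (W.map (Int.castRingHom ℚ)).IsPeuRamifieeAt p p) →
    W.IsResiduallyModularOfLevel p M → W.IsResiduallyModularOfLevel p (M / p)

/-- The statement of removing a residually unramified prime from the level. -/
def LowerUnramifiedInput : Prop :=
  ∀ M q : ℕ, Squarefree M → q.Prime → q ≠ p → q ∣ M →
    WeierstrassCurve.Affine.Point.GaloisRepUnramifiedAt (K := Qbar) ℚ
      (W.map (Int.castRingHom ℚ)) p q →
    W.IsResiduallyModularOfLevel p M → W.IsResiduallyModularOfLevel p (M / q)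

variable {p W}

/-- Residual modularity at the minimal level. -/
theorem residual_minimal [Fact p.Prime] (hΔ : W.Δ ≠ 0) (hsq : LowerSquareInput p W)
    (hatp : LowerAtPInput p W) (hunr : LowerUnramifiedInput p W) {M : ℕ} (hM : M ≠ 0)
    (hp2 : ¬ p ^ 2 ∣ M) (h3 : ∀ q : ℕ, q.Prime → q ≠ p → ¬ q ^ 3 ∣ M)
    (hres : W.IsResiduallyModularOfLevel p M) :
    W.IsResiduallyModularOfLevel p (∏ v ∈ minimalPrimes p W, v) := by
  classical
  induction M using Nat.strong_induction_on with
  | _ M ih =>
    have hp : p.Prime := Fact.out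
    have hstep : ∀ q : ℕ, q.Prime → q ∣ M → W.IsResiduallyModularOfLevel p (M / q) →
        W.IsResiduallyModularOfLevel p (∏ v ∈ minimalPrimes p W, v) := fun q hq hqM h =>
      ih (M / q) (Nat.div_lt_self (Nat.pos_of_ne_zero hM) hq.one_lt)
        (Nat.div_ne_zero_iff.mpr ⟨hq.ne_zero, Nat.le_of_dvd (Nat.pos_of_ne_zero hM) hqM⟩)
        (fun h' => hp2 (h'.trans (Nat.div_dvd_of_dvd hqM)))
        (fun l hl hlp h' => h3 l hl hlp (h'.trans (Nat.div_dvd_of_dvd hqM))) h
    by_cases hsqf : Squarefree M
    swap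
    · obtain ⟨q, hq, hq2⟩ : ∃ q, q.Prime ∧ q * q ∣ M := by
        by_contra h
        push Not at h
        exact hsqf (Nat.squarefree_iff_prime_squarefree.mpr h)
      rw [← pow_two] at hq2
      have hqp : q ≠ p := fun e => hp2 (e ▸ hq2)
      exact hstep q hq ((dvd_pow_self q two_ne_zero).trans hq2)
        (hsq M q hq hqp hq2 (h3 q hq hqp) hres)
    by_cases hall : ∀ q ∈ M.primeFactors, q ∈ minimalPrimes p W
    · have hdvd : M ∣ ∏ v ∈ minimalPrimes p W, v := by
        rw [← Nat.prod_primeFactors_of_squarefree hsqf]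
        exact Finset.prod_dvd_prod_of_subset _ _ _ hall
      have : NeZero M := ⟨hM⟩
      have : NeZero (∏ v ∈ minimalPrimes p W, v) := ⟨Finset.prod_ne_zero_iff.mpr
        fun v hv => ((mem_minimalPrimes hΔ).mp hv).1.ne_zero⟩
      exact residual_of_dvd hdvd hres
    push Not at hall
    obtain ⟨q, hqM, hqmin⟩ := hall
    obtain ⟨hq, hqM, -⟩ := Nat.mem_primeFactors.mp hqM
    rw [mem_minimalPrimes hΔ] at hqmin
    refine hstep q hq hqM ?_
    by_cases hqp : q = p
    · subst hqp
      refine hatp M hsqf hqM ?_ hres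
      by_cases hgood : W.IsGoodPrimeFor q
      · exact Or.inl hgood
      exact Or.inr (by_contra fun h => hqmin ⟨hq, not_not.mp hgood, Or.inr ⟨rfl, h⟩⟩)
    · refine hunr M q hsqf hq hqp hqM ?_ hres
      by_cases hgood : W.IsGoodPrimeFor q
      · exact galoisRepUnramifiedAt_of_good hΔ hq hqp hgood
      exact by_contra fun h => hqmin ⟨hq, not_not.mp hgood, Or.inl ⟨hqp, h⟩⟩

end FLTAgent.ModularityLifting.Start
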