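import Fermat.Agent.ModularityLifting.Start.NodeOrbit
import Fermat.Agent.TateLocal.AtP
import Fermat.Agent.TateLocal.NodeDecomp
import Fermat.Agent.TateLocal.Exists
import Fermat.Agent.TWPrimes.Flat.Kills

/-!
# A très ramifié residual representation is not flat at `p`

At a multiplicative `p` not dividing the valuation of the discriminant a point of order `p` over the
node has an abscissa of fractional value with at most `p` conjugates, all close to it; no point
field of a flat model contains such an element.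
-/

set_option autoImplicit false

noncomputable section

open WeierstrassCurve WeierstrassCurve.Affine WeierstrassCurve.Affine.Point
open scoped WeierstrassCurve.Affine

namespace FLTAgent.ModularityLifting.Start

open FLTAgent.Density FLTAgent.ECReduction FLTAgent.ConductorMatch FLTAgent.TateLocal
  FLTAgent.LocalDuality FLTAgent.FlatBound FLTAgent.DefRing

section Norms

variable {p : ℕ} [Fact p.Prime]

theorem valuation_le_iff_norm {a b : Qbar} :
    (padicPlace p).valuation a ≤ (padicPlace p).valuation b ↔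
      ‖padicEmbedding p a‖ ≤ ‖padicEmbedding p b‖ := by
  rcases eq_or_ne b 0 with rfl | hb
  · simp only [_root_.map_zero, norm_zero, le_zero_iff, norm_le_zero_iff]
    rw [Valuation.zero_iff, map_eq_zero]
  · have hpos : 0 < (padicPlace p).valuation b := (padicPlace p).valuation.pos_iff.2 hb
    rw [← div_le_one₀ hpos, ← map_div₀, (padicPlace p).valuation_le_one_iff, mem_padicPlace_iff,
      ← NNReal.coe_le_coe, coe_nnnorm, NNReal.coe_one, map_div₀, norm_div,
      div_le_one (norm_pos_iff.2 ((map_ne_zero _).2 hb))]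

theorem valuation_eq_iff_norm {a b : Qbar} :
    (padicPlace p).valuation a = (padicPlace p).valuation b ↔
      ‖padicEmbedding p a‖ = ‖padicEmbedding p b‖ := by
  rw [le_antisymm_iff, le_antisymm_iff, valuation_le_iff_norm, valuation_le_iff_norm]

/-- An element with few conjugates has value a fraction with small denominator. -/
theorem exists_norm_pow_eq {x : PadicAlgCl p} (hx : x ≠ 0) {T : Finset (PadicAlgCl p)}
    (hT : ∀ τ : LocalGal p, τ x ∈ T) :
    ∃ (d : ℕ) (k : ℤ), 0 < d ∧ d ≤ T.card ∧ ‖x‖ ^ d = ‖(p : PadicAlgCl p)‖ ^ k := by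
  classical
  let K : IntermediateField ℚ_[p] (PadicAlgCl p) := ⊥
  have hprod : ‖((minpoly K x).coeff 0 : PadicAlgCl p)‖ = ‖x‖ ^ (conjRoots K x).card := by
    have h := aeval_minpoly_eq_prod K x 0
    rw [← Polynomial.coeff_zero_eq_aeval_zero'] at h
    rw [show ((minpoly K x).coeff 0 : PadicAlgCl p) =
      algebraMap K (PadicAlgCl p) ((minpoly K x).coeff 0) from rfl, h, norm_prod]
    refine Finset.prod_eq_pow_card fun r hr => ?_
    obtain ⟨σ, rfl⟩ := mem_conjRoots_iff.mp hr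
    rw [zero_sub, norm_neg, norm_base_galois]
  have hc0 : (minpoly K x).coeff 0 ≠ 0 := minpoly.coeff_zero_ne_zero
    (Algebra.IsIntegral.isIntegral x) hx
  obtain ⟨a, ha⟩ := IntermediateField.mem_bot.mp ((minpoly K x).coeff 0).2
  have ha0 : a ≠ 0 := fun h => hc0 (Subtype.ext (by rw [← ha, h, _root_.map_zero]; rfl))
  refine ⟨_, a.valuation, Finset.card_pos.mpr ⟨x, self_mem_conjRoots K x⟩,
    Finset.card_le_card fun r hr => ?_, ?_⟩
  · obtain ⟨σ, rfl⟩ := mem_conjRoots_iff.mp hr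
    exact hT (σ.restrictScalars ℚ_[p])
  · rw [← hprod, ← ha, norm_algebraMap_padic, Padic.norm_eq_zpow_neg_valuation ha0, norm_natCast_p,
      inv_zpow, zpow_neg]

end Norms

variable {W : WeierstrassCurve ℤ}

/-- The abscissa of a point, zero at infinity. -/
def absc : Pt W → Qbar
  | 0 => 0
  | .some x _ _ => x

theorem absc_neg (P : Pt W) : absc (-P) = absc P := by
  rcases P with _ | ⟨x, y, h⟩ <;> rfl

theorem absc_zsmul_sign {ε : ℤ} (hε : ε = 1 ∨ ε = -1) (P : Pt W) : absc (ε • P) = absc P := by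
  rcases hε with rfl | rfl
  · rw [one_zsmul]
  · rw [neg_one_zsmul, absc_neg]

theorem absc_smul (σ : GalQ) (P : Pt W) : absc (σ • P) = σ (absc P) := by
  rcases P with _ | ⟨x, y, h⟩
  · exact (_root_.map_zero σ).symm
  · rfl

variable {p : ℕ} [Fact p.Prime] {A : ValuationSubring Qbar}

/-- Torsion points with nonsingular reduction reduce to infinity. -/
theorem inE1_of_torsion_inE0 (hA : A.LiesOverPrime p)
    (nd : NodeData A ((EQ W)⁄Qbar : WeierstrassCurve Qbar)) {P : Pt W} (hP : p • P = 0)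
    (h0 : InE0 A ((EQ W)⁄Qbar : WeierstrassCurve Qbar) P) :
    InE1 A ((EQ W)⁄Qbar : WeierstrassCurve Qbar) P := by
  have hp : p.Prime := Fact.out
  refine inE1_of_ratio nd intAt h0 ?_
  have h := val_ratio_nsmul nd intAt h0 p
  rw [hP] at h
  have hr := (val_ratio nd intAt h0)
  set a : A := ⟨ratio nd P, (A.valuation_le_one_iff _).1 hr.le⟩
  obtain ⟨c, hc⟩ := exists_add_pow_prime_eq hp (a - 1) (1 : A)
  rw [sub_add_cancel, one_pow] at hc
  have hpow : A.valuation ((ratio nd P - 1) ^ p) < 1 := by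
    have e : (ratio nd P - 1) ^ p =
        (ratio nd P ^ p - 1) - (p : Qbar) * ((ratio nd P - 1) * c) := by
      have := congrArg (Subtype.val : A → Qbar) hc
      push_cast at this
      linear_combination -this
    rw [e]
    refine val_sub_lt A ?_ (val_mul_lt_left A (A.mem_nonunits_iff.1 hA)
      (val_mul_le A (val_sub_le A hr.le (val_one_le A)) ((A.valuation_le_one_iff _).2 c.2)))
    rw [A.valuation.map_sub_swap]
    exact h
  rw [map_pow] at hpow
  exact lt_of_not_ge fun hge => hpow.not_ge (one_le_pow₀ hge)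

open scoped Classical in
/-- The points of order dividing `p` reducing to infinity number at most `p`. -/
theorem card_line_le (hp2 : p ≠ 2) (hΔ : W.Δ ≠ 0) (hA : A.LiesOverPrime p)
    (hc4 : ¬ (p : ℤ) ∣ W.c₄) (nd : NodeData A ((EQ W)⁄Qbar : WeierstrassCurve Qbar))
    [Fintype (Tor W p)] :
    (Finset.univ.filter fun T : Tor W p =>
      InE1 A ((EQ W)⁄Qbar : WeierstrassCurve Qbar) (T : Pt W)).card ≤ p := by
  have hp : p.Prime := Fact.out
  have : NeZero p := ⟨hp.ne_zero⟩
  obtain ⟨b⟩ := GaloisImage.exists_basis (W := W) (p := p) hΔ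
  have : Module.Finite (ZMod p) (GaloisImage.Tors W p) := Module.Finite.of_basis b
  have hne : GaloisImage.torE1 (p := p) W A ≠ ⊤ := by
    intro htop
    obtain ⟨z, hz, hz1⟩ := exists_not_inE1 hp2 hΔ hA hc4 nd
    have hmem : (⟨z, (FLTAgent.ECTorsion.mem_torsionBy_iff_nsmul p _).mpr hz⟩ :
        GaloisImage.Tors W p) ∈ GaloisImage.torE1 (p := p) W A := htop ▸ Submodule.mem_top
    exact hz1 (GaloisImage.mem_torE1.1 hmem)
  have hlt := Submodule.finrank_lt hne
  rw [Module.finrank_eq_card_basis b, Fintype.card_fin] at hlt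
  have hcard : Nat.card (GaloisImage.torE1 (p := p) W A) ≤ p := by
    rw [Module.natCard_eq_pow_finrank (K := ZMod p), Nat.card_zmod]
    exact (Nat.pow_le_pow_right hp.pos (Nat.le_of_lt_succ hlt)).trans (pow_one p).le
  refine le_trans (le_of_eq ?_) hcard
  rw [← Fintype.card_subtype, ← Nat.card_eq_fintype_card]
  exact Nat.card_congr (Equiv.subtypeEquivRight fun T => GaloisImage.mem_torE1.symm)

omit [Fact p.Prime] in
/-- The Galois action preserves the points killed by `p`. -/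
private theorem nsmul_galois_smul {σ : GalQ} {P : Pt W} (hP : p • P = 0) : p • (σ • P) = 0 :=
  (map_nsmul (DistribSMul.toAddMonoidHom (Pt W) σ) p P).symm.trans (by rw [hP, _root_.map_zero])

/-- The constant at the node has the value of the discriminant. -/
private theorem val_node_c (hA : A.LiesOverPrime p) (hΔ : W.Δ ≠ 0)
    (nd : NodeData A ((EQ W)⁄Qbar : WeierstrassCurve Qbar)) :
    A.valuation nd.c = A.valuation (p : Qbar) ^ padicValInt p W.Δ := by
  obtain ⟨m, hm⟩ := padicValInt_dvd (p := p) W.Δ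
  have hpm : ¬ (p : ℤ) ∣ m := by
    rintro ⟨m', rfl⟩
    have h1 : ((p : ℤ) ^ (padicValInt p W.Δ + 1)) ∣ W.Δ :=
      ⟨m', hm.trans (by rw [pow_succ]; ring)⟩
    rcases (padicValInt_dvd_iff _ W.Δ).1 h1 with h | h
    · exact hΔ h
    · omega
  rw [← val_node_discr nd]
  show A.valuation ((EQ W)⁄Qbar : WeierstrassCurve Qbar).Δ = _
  rw [baseChange_eq, WeierstrassCurve.map_Δ, eq_intCast]
  conv_lhs => rw [hm]
  push_cast
  rw [map_mul, map_pow,
    show A.valuation (m : Qbar) = 1 from (A.valuation_eq_one_iff (m : A)).mp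
      (FLTAgent.Deuring.isUnit_intCast_of_not_dvd hA hpm), mul_one]

/-- Some point of order `p` lies over the node, on the positive branch. -/
private theorem exists_plus_point (hp2 : p ≠ 2) (hΔ : W.Δ ≠ 0) (hA : A.LiesOverPrime p)
    (hc4 : ¬ (p : ℤ) ∣ W.c₄) (nd : NodeData A ((EQ W)⁄Qbar : WeierstrassCurve Qbar)) :
    ∃ z : Pt W, p • z = 0 ∧ ∃ γ, nd.Plus z γ := by
  have hp : p.Prime := Fact.out
  have := isElliptic (W := W) hΔ
  have hI : IntAt A ((EQ W)⁄Qbar : WeierstrassCurve Qbar) := intAt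
  obtain ⟨z₀, hz₀, hz₀'⟩ := exists_not_inE1 hp2 hΔ hA hc4 nd
  have hz₀E : ¬ InE0 A ((EQ W)⁄Qbar : WeierstrassCurve Qbar) z₀ := fun h =>
    hz₀' (inE1_of_torsion_inE0 hA nd hz₀ h)
  rcases nd.trichotomy hI hz₀E with h | h | h
  · exact ⟨z₀, hz₀, h⟩
  · exact ⟨-z₀, by rw [neg_nsmul, hz₀, _root_.neg_zero], h⟩
  · refine absurd ?_ hz₀E
    obtain ⟨i, hi⟩ := hp.odd_of_ne_two hp2
    have h2 := h.two_inE0 nd hI
    have he : z₀ = -(i • (z₀ + z₀)) := by
      have h0 : (2 * i + 1) • z₀ = 0 := (congrArg (· • z₀) hi).symm.trans hz₀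
      rw [add_smul, one_smul, mul_smul, two_smul] at h0
      rw [nsmul_add]
      exact eq_neg_of_add_eq_zero_right h0
    rw [he, ← mem_E0 (hW := hI)]
    exact neg_mem (nsmul_mem (mem_E0.2 h2) i)

/-- A point on the positive branch has an abscissa of value above half that of the constant. -/
private theorem val_c_lt_sq (nd : NodeData A ((EQ W)⁄Qbar : WeierstrassCurve Qbar)) {z : Pt W}
    {γ : A.ValueGroup} (hP : nd.Plus z γ) : A.valuation nd.c < γ ^ 2 := by
  obtain ⟨π, hπ⟩ := IsAlgClosed.exists_pow_nat_eq nd.c two_pos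
  have hπc : A.valuation nd.c = A.valuation π ^ (2 * 1) := by rw [← map_pow, mul_one, hπ]
  have hπ1 : A.valuation π < 1 := lt_of_not_ge fun hge =>
    nd.val_c.not_ge (hπc ▸ one_le_pow₀ hge)
  have hlo := NodeData.Plus.pow_lt nd hπ1 le_rfl hπc hP
  rw [pow_one] at hlo
  rw [hπc, mul_one]
  exact pow_lt_pow_left₀ hlo zero_le two_ne_zero

/-- The conjugates of the abscissa of a point `z` over the node are abscissae of sums of `z` with
points near infinity. -/
private theorem exists_torsion_of_conj (hp2 : p ≠ 2) (hΔ : W.Δ ≠ 0)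
    (nd : NodeData (padicPlace p) ((EQ W)⁄Qbar : WeierstrassCurve Qbar)) {z : Pt W}
    (hz : p • z = 0) {x y : Qbar} {hn} (hze : z = Point.some x y hn) (τ : LocalGal p) :
    ∃ T : Tor W p, InE1 (padicPlace p) ((EQ W)⁄Qbar : WeierstrassCurve Qbar) (T : Pt W) ∧
      (padicPlace p).valuation (nd.X (absc (z + (T : Pt W)))) =
        (padicPlace p).valuation (nd.X x) ∧
      padicEmbedding p (nd.X (absc (z + (T : Pt W)))) = τ (padicEmbedding p (nd.X x)) := by
  have hp : p.Prime := Fact.out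
  have := isElliptic (W := W) hΔ
  have hA : (padicPlace p).LiesOverPrime p := TWPrimes.padicPlace_liesOverPrime p
  have hI : IntAt (padicPlace p) ((EQ W)⁄Qbar : WeierstrassCurve Qbar) := intAt
  set σ := toGlobal p τ
  have hv := valPres hp hA (localGaloisToGlobal_mem_decompositionSubgroup p τ : σ ∈ _)
  set ε := sgn nd σ with hε
  have hεc : ε = 1 ∨ ε = -1 := sgn_cases nd σ
  have hεε : ε * ε = 1 := by rcases hεc with h | h <;> rw [h] <;> rfl
  set D := σ • z - ε • z with hD
  have hDt : p • D = 0 := by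
    rw [hD, nsmul_sub, nsmul_galois_smul hz, smul_comm, hz, zsmul_zero, sub_zero]
  have hD0 : InE0 (padicPlace p) ((EQ W)⁄Qbar : WeierstrassCurve Qbar) D :=
    smul_sub_sgn_inE0 nd hI hv (hp.odd_of_ne_two hp2) hz
  have hεDt : p • (ε • D) = 0 := by rw [smul_comm, hDt, zsmul_zero]
  have hsum : absc (z + ε • D) = σ x := by
    rw [hD, zsmul_sub, smul_smul, hεε, one_zsmul, add_sub_cancel, absc_zsmul_sign hεc, absc_smul,
      hze]
    rfl
  have hX' : nd.X (σ x) = σ (nd.X x) := (map_coord nd hv (fixesCoeffs σ) x y).1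
  refine ⟨⟨ε • D, (FLTAgent.ECTorsion.mem_torsionBy_iff_nsmul p _).mpr hεDt⟩,
    inE1_of_torsion_inE0 hA nd hεDt (mem_E0.1 (zsmul_mem (mem_E0 (hW := hI).2 hD0) ε)), ?_, ?_⟩
  · show (padicPlace p).valuation (nd.X (absc (z + ε • D))) = _
    rw [hsum, hX', hv]
  · show padicEmbedding p (nd.X (absc (z + ε • D))) = _
    rw [hsum, hX', ← padicEmbedding_localGaloisToGlobal p]

/-- The abscissa of a point of order `p` near infinity has large norm, having at most `p - 1`
conjugates. -/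
private theorem inv_norm_natCast_le_norm_absc_pow (hp2 : p ≠ 2) (hΔ : W.Δ ≠ 0)
    (hc4 : ¬ (p : ℤ) ∣ W.c₄) (nd : NodeData (padicPlace p) ((EQ W)⁄Qbar : WeierstrassCurve Qbar))
    {T : Tor W p} {x y : Qbar} {h} (hT : (T : Pt W) = Point.some x y h)
    (hT1 : InE1 (padicPlace p) ((EQ W)⁄Qbar : WeierstrassCurve Qbar) (T : Pt W)) :
    ‖(p : PadicAlgCl p)‖⁻¹ ≤ ‖padicEmbedding p x‖ ^ (p - 1) := by
  classical
  have hp : p.Prime := Fact.out
  have := isElliptic (W := W) hΔ
  set A := padicPlace p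
  have hA : A.LiesOverPrime p := TWPrimes.padicPlace_liesOverPrime p
  set e := padicEmbedding p
  have := FLTAgent.ECTorsion.finite_torsionBy (EQ W) (K := Qbar)
    (Nat.cast_ne_zero.mpr hp.ne_zero : ((p : ℕ) : Qbar) ≠ 0)
  have := Fintype.ofFinite (Tor W p)
  set line := Finset.univ.filter fun T' : Tor W p =>
    InE1 A ((EQ W)⁄Qbar : WeierstrassCurve Qbar) (T' : Pt W)
  have h3 : 1 < A.valuation x := by
    rw [hT] at hT1
    exact hT1
  have hx0 : e x ≠ 0 := (map_ne_zero e).2 fun h0 => by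
    rw [h0, _root_.map_zero] at h3
    exact not_lt_zero h3
  set S₀ := (line.filter fun T' : Tor W p => (T' : Pt W) ≠ 0).image fun T' : Tor W p =>
    e (absc (T' : Pt W))
  have hS : ∀ τ : LocalGal p, τ (e x) ∈ S₀ := by
    intro τ
    have hv := valPres hp hA
      (localGaloisToGlobal_mem_decompositionSubgroup p τ : toGlobal p τ ∈ _)
    refine Finset.mem_image.mpr ⟨⟨toGlobal p τ • (T : Pt W),
      (FLTAgent.ECTorsion.mem_torsionBy_iff_nsmul p _).mpr (nsmul_galois_smul (nsmul_coe T))⟩,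
      Finset.mem_filter.mpr ⟨Finset.mem_filter.mpr ⟨Finset.mem_univ _, ?_⟩, ?_⟩, ?_⟩
    · exact inE1_smul_of_valPres hv hT1
    · show toGlobal p τ • (T : Pt W) ≠ 0
      intro h0
      have h1 : (T : Pt W) = 0 := (inv_smul_smul (toGlobal p τ) (T : Pt W)).symm.trans
        ((congrArg (fun P : Pt W => (toGlobal p τ)⁻¹ • P) h0).trans
          (_root_.map_zero (DistribSMul.toAddMonoidHom (Pt W) ((toGlobal p τ)⁻¹ : GalQ))))
      rw [hT] at h1
      exact Point.some_ne_zero h h1
    · show e (absc (toGlobal p τ • (T : Pt W))) = τ (e x)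
      rw [absc_smul, hT, ← padicEmbedding_localGaloisToGlobal p]
      rfl
  obtain ⟨d, k, hd, hdc, hdk⟩ := exists_norm_pow_eq hx0 hS
  have hS₀ : S₀.card ≤ p - 1 := by
    refine Finset.card_image_le.trans ?_
    rw [show (line.filter fun T' : Tor W p => (T' : Pt W) ≠ 0) = line.erase 0 by
      rw [← Finset.filter_ne']
      exact Finset.filter_congr fun T' _ => not_congr
        ⟨fun h => Subtype.ext h, fun h => congrArg Subtype.val h⟩]
    rw [Finset.card_erase_of_mem (Finset.mem_filter.mpr ⟨Finset.mem_univ _, trivial⟩)]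
    exact Nat.sub_le_sub_right (card_line_le hp2 hΔ hA hc4 nd) 1
  have hx1 : 1 < ‖e x‖ := by
    rwa [← _root_.map_one A.valuation, ← not_le, valuation_le_iff_norm, map_one e, norm_one,
      not_le] at h3
  have hpp : 0 < ‖(p : PadicAlgCl p)‖ := norm_pos_iff.mpr (natCast_p_ne_zero p)
  have hk : k ≤ -1 := by
    by_contra hlt
    push Not at hlt
    have h1 := hdk ▸ one_lt_pow₀ hx1 hd.ne'
    refine h1.not_ge ?_
    rw [← zpow_zero ‖(p : PadicAlgCl p)‖]
    exact zpow_le_zpow_right_of_le_one₀ hpp (norm_natCast_p_lt_one p).le (by omega)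
  refine le_trans ?_ (pow_le_pow_right₀ hx1.le (hdc.trans hS₀))
  rw [hdk, ← zpow_neg_one]
  exact zpow_le_zpow_right_of_le_one₀ hpp (norm_natCast_p_lt_one p).le hk

/-- Adding a point near infinity to a point over the node moves its abscissa little, unless it
changes its value. -/
private theorem norm_sub_absc_le (hp2 : p ≠ 2) (hΔ : W.Δ ≠ 0) (hc4 : ¬ (p : ℤ) ∣ W.c₄)
    (nd : NodeData (padicPlace p) ((EQ W)⁄Qbar : WeierstrassCurve Qbar)) {δ : ℝ} (hδ0 : 0 ≤ δ)
    (hδ : δ ^ (2 * (p - 1)) = ‖(p : PadicAlgCl p)‖) {z : Pt W}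
    {γ : (padicPlace p).ValueGroup} (hP : nd.Plus z γ) {x y : Qbar} {hn}
    (hze : z = Point.some x y hn) (hγ1 : γ < 1) (hX : (padicPlace p).valuation (nd.X x) = γ)
    (T : Tor W p) (hT1 : InE1 (padicPlace p) ((EQ W)⁄Qbar : WeierstrassCurve Qbar) (T : Pt W))
    (hTγ : (padicPlace p).valuation (nd.X (absc (z + (T : Pt W)))) = γ) :
    ‖padicEmbedding p (nd.X (absc (z + (T : Pt W)))) - padicEmbedding p (nd.X x)‖ ≤
      δ * ‖padicEmbedding p (nd.X x)‖ := by
  have hp : p.Prime := Fact.out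
  have := isElliptic (W := W) hΔ
  set e := padicEmbedding p
  set u := e (nd.X x) with hu
  have hI : IntAt (padicPlace p) ((EQ W)⁄Qbar : WeierstrassCurve Qbar) := intAt
  rcases hPe : z + (T : Pt W) with _ | ⟨x₁, y₁, h₁⟩
  · exfalso
    have : z = -(T : Pt W) := eq_neg_of_add_eq_zero_left (hPe.trans Point.zero_def.symm)
    exact NodeData.Plus.not_inE0 nd hI hP (this ▸ hT1.inE0.neg hI)
  rw [hPe] at hTγ
  show ‖e (nd.X x₁) - u‖ ≤ δ * ‖u‖
  by_cases hx : x₁ = x
  · rw [hx, sub_self, norm_zero]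
    exact mul_nonneg hδ0 (norm_nonneg _)
  have hdiff : (Point.some x₁ y₁ h₁ : Pt W) - Point.some x y hn = (T : Pt W) := by
    rw [← hPe, ← hze, add_sub_cancel_left]
  rcases hTe : (T : Pt W) with _ | ⟨x₃, y₃, h₃⟩
  · exfalso
    rw [hTe, sub_eq_iff_eq_add, ← Point.zero_def, zero_add] at hdiff
    exact hx (Point.some.injEq .. |>.mp hdiff).1
  have hx3 := inv_norm_natCast_le_norm_absc_pow hp2 hΔ hc4 nd hTe hT1
  rw [hTe] at hdiff hT1
  have h3 : 1 < (padicPlace p).valuation x₃ := hT1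
  have key := val_sub_sq_mul_le nd hγ1 (val_c_lt_sq nd hP) hx hTγ hX hdiff h3
  rw [← hX, ← map_pow, ← map_pow, ← map_mul, valuation_le_iff_norm, map_mul, map_pow, map_pow,
    norm_mul, norm_pow, norm_pow, map_sub] at key
  have hb' : ‖e (nd.X x₁) - u‖ = ‖e x₁ - e x‖ := by
    rw [hu, ← map_sub, ← map_sub]
    congr 2
    simp only [NodeData.X]; ring
  rw [hb']
  have h2 : (‖e x₁ - e x‖ ^ 2 * ‖e x₃‖) ^ (p - 1) ≤ (‖u‖ ^ 2) ^ (p - 1) :=
    pow_le_pow_left₀ (by positivity) key _
  rw [mul_pow, ← pow_mul, ← pow_mul] at h2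
  refine (pow_le_pow_iff_left₀ (norm_nonneg _) (by positivity)
    (show 2 * (p - 1) ≠ 0 by have := hp.two_le; omega)).1 ?_
  rw [mul_pow δ, hδ]
  have hpp : 0 < ‖(p : PadicAlgCl p)‖ := norm_pos_iff.mpr (natCast_p_ne_zero p)
  have h3' := (mul_le_mul_of_nonneg_left hx3 (by positivity :
    (0 : ℝ) ≤ ‖e x₁ - e x‖ ^ (2 * (p - 1)))).trans h2
  rw [← div_eq_mul_inv, div_le_iff₀ hpp] at h3'
  rwa [mul_comm ‖(p : PadicAlgCl p)‖]

/-- An abscissa over the node with at most `p` conjugates has value of exact denominator `p` when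
`p` does not divide the value of the discriminant. -/
private theorem exists_norm_pow_prime_eq (hp2 : p ≠ 2) (hΔ : W.Δ ≠ 0)
    (hN : ¬ p ∣ padicValInt p W.Δ)
    (nd : NodeData (padicPlace p) ((EQ W)⁄Qbar : WeierstrassCurve Qbar)) {z : Pt W}
    (hz : p • z = 0) {γ : (padicPlace p).ValueGroup} (hP : nd.Plus z γ) {x : Qbar}
    (hX : (padicPlace p).valuation (nd.X x) = γ) (hu0 : padicEmbedding p (nd.X x) ≠ 0)
    {T₀ : Finset (PadicAlgCl p)} (hT₀ : T₀.card ≤ p)
    (hconj : ∀ τ : LocalGal p, τ (padicEmbedding p (nd.X x)) ∈ T₀) :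
    ∃ m : ℤ, ¬ (p : ℤ) ∣ m ∧
      ‖padicEmbedding p (nd.X x)‖ ^ p = ‖(p : PadicAlgCl p)‖ ^ m := by
  have hp : p.Prime := Fact.out
  have hA : (padicPlace p).LiesOverPrime p := TWPrimes.padicPlace_liesOverPrime p
  have hI : IntAt (padicPlace p) ((EQ W)⁄Qbar : WeierstrassCurve Qbar) := intAt
  have hEΔ : ((EQ W)⁄Qbar : WeierstrassCurve Qbar).Δ ≠ 0 := by
    rw [baseChange_eq, WeierstrassCurve.map_Δ, eq_intCast]
    exact_mod_cast hΔ
  have hp1 : (padicPlace p).valuation (p : Qbar) < 1 := (padicPlace p).mem_nonunits_iff.1 hA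
  have hp0 : (p : Qbar) ≠ 0 := Nat.cast_ne_zero.2 hp.ne_zero
  have h2v : (padicPlace p).valuation (2 : Qbar) = 1 := by
    have := ConductorMatch.val_natCast_eq_one (A := padicPlace p) hp hA (n := 2)
      fun h => hp2 ((Nat.prime_dvd_prime_iff_eq hp Nat.prime_two).1 h)
    exact_mod_cast this
  have hc := val_node_c hA hΔ nd
  obtain ⟨d, m, hd, hdc, hdm⟩ := exists_norm_pow_eq hu0 hconj
  set u := padicEmbedding p (nd.X x) with hu
  have hval : ∀ (d' : ℕ) (m' : ℤ), ‖u‖ ^ d' = ‖(p : PadicAlgCl p)‖ ^ m' →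
      γ ^ d' = (padicPlace p).valuation (p : Qbar) ^ m' := by
    intro d' m' h
    rw [← hX, ← map_pow, ← map_zpow₀, valuation_eq_iff_norm, map_pow, map_zpow₀, norm_pow,
      norm_zpow, map_natCast]
    exact h
  have hdp : d = p := by
    by_contra hne
    have hlt : d < p := lt_of_le_of_ne (hdc.trans hT₀) hne
    exact false_of_class nd hI hEΔ hp hp2 h2v hp1 hp0 hc hN hz hP
      (fun h => (Nat.le_of_dvd hd h).not_gt hlt) (hval d m hdm)
  refine ⟨m, ?_, hdp ▸ hdm⟩
  rintro ⟨m', rfl⟩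
  refine false_of_class nd hI hEΔ hp hp2 h2v hp1 hp0 hc hN hz hP (d := 1)
    (Nat.dvd_one.not.2 hp.ne_one) (hval 1 m' ?_)
  rw [hdp, zpow_mul, zpow_natCast] at hdm
  rw [pow_one]
  refine (pow_left_inj₀ (norm_nonneg _) (zpow_nonneg (norm_nonneg _) _) hp.ne_zero).1 ?_
  rw [hdm, ← zpow_natCast (_ ^ m'), ← zpow_mul, ← zpow_natCast, ← zpow_mul, mul_comm]

/-- No element fixed by the kernel of a flat representation in characteristic `p` has value of
exact denominator `p` and at most `p` conjugates, all close to it. -/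
private theorem false_of_flatAt (hp2 : p ≠ 2) {k : Type} [Field k] [Finite k] (hk : (p : k) = 0)
    {ρ : MatRep k} (hflat : FlatAt ρ p) {u : PadicAlgCl p} {T₀ : Finset (PadicAlgCl p)}
    (hT₀ : T₀.card ≤ p) (hconj : ∀ τ : LocalGal p, τ u ∈ T₀) {m : ℤ} (hm : ¬ (p : ℤ) ∣ m)
    (hum : ‖u‖ ^ p = ‖(p : PadicAlgCl p)‖ ^ m) {δ : ℝ} (hδ0 : 0 ≤ δ)
    (hδ : δ ^ (2 * (p - 1)) = ‖(p : PadicAlgCl p)‖) (hclose : ∀ b ∈ T₀, ‖b - u‖ ≤ δ * ‖u‖)
    (hfix : ∀ τ : LocalGal p, ρ (toGlobal p τ) = 1 → τ u = u) : False := by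
  have hp : p.Prime := Fact.out
  have : Finite (k ⧸ (⊥ : Ideal k)) := Finite.of_surjective _ Ideal.Quotient.mk_surjective
  have := Fintype.ofFinite (Fin 2 → k ⧸ (⊥ : Ideal k))
  obtain ⟨H, hH, hE'⟩ := exists_isPadicModel (hflat ⊥ inferInstance)
  have hkill : ∀ v : Fin 2 → k ⧸ (⊥ : Ideal k), p • v = 0 := fun v => by
    have hpk0 : (p : k ⧸ (⊥ : Ideal k)) = 0 := by
      rw [← map_natCast (Ideal.Quotient.mk (⊥ : Ideal k)), hk, _root_.map_zero]
    funext i
    rw [Pi.smul_apply, nsmul_eq_mul, hpk0, zero_mul]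
    rfl
  let M : PModel p :=
    { V := Fin 2 → k ⧸ (⊥ : Ideal k)
      act := fun τ v => redAct ρ ⊥ (toGlobal p τ) v
      H := H, isModel := hH, killed := hkill, finite_values := hE' }
  let L : IntermediateField ℚ_[p] (PadicAlgCl p) := ⊥
  let M' : Unit → PModel p := fun _ => M
  have hst : ∀ σ : LocalGal p, ∀ a ∈ L, σ a ∈ L := fun σ a ha => by
    obtain ⟨b, rfl⟩ := IntermediateField.mem_bot.mp ha
    rw [σ.commutes]
    exact L.algebraMap_mem b
  have he1 : ∀ (ϖ : PadicAlgCl p), ϖ ∈ L → ∀ n : ℕ, ‖ϖ‖ ^ n = ‖(p : PadicAlgCl p)‖ → n ≤ 1 :=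
    fun ϖ hϖ n hn' => (exponent_le_finrank L hϖ hn').trans IntermediateField.finrank_bot.le
  obtain ⟨K, l, n, hL⟩ := exists_isTame L hst fun ϖ hϖ n hn' _ hdvd' => by
    rcases Nat.le_one_iff_eq_zero_or_eq_one.mp (he1 ϖ hϖ n hn') with rfl | rfl
    · rw [pow_zero] at hn'
      exact (norm_natCast_p_lt_one p).ne hn'.symm
    · exact hp.ne_one (Nat.dvd_one.mp hdvd')
  have hln : ‖l‖ = ‖(p : PadicAlgCl p)‖ := by
    have h1 := he1 l hL.totRam.mem n hL.totRam.norm_pow
    have hn1 : n = 1 := le_antisymm h1 hL.totRam.pos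
    rw [← hL.totRam.norm_pow, hn1, pow_one]
  have := finiteDimensional_pointField L M'
  have huT : u ∈ T₀ := by simpa using hconj 1
  refine not_mem_pointField_of_conj hL (le_pointField L M') (pointField_stable L M' hst)
    (fun i => (M' i).isModel) (fun i => (M' i).killed)
    (fun i f hf v => value_mem_pointField L M' i hf v)
    (fun σ hσL hσv => pointField_fixed L M' hσL hσv) huT hT₀ (fun τ _ => hconj τ) hm
    (by rw [hln]; exact hum) hδ0 hclose ?_ ?_
  · have h1 : δ < 1 := by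
      by_contra hle
      push Not at hle
      exact (norm_natCast_p_lt_one p).not_ge (hδ ▸ one_le_pow₀ hle)
    have h0 : 0 < δ := by
      refine lt_of_le_of_ne hδ0 fun h => natCast_p_ne_zero p (norm_eq_zero.mp ?_)
      rw [← hδ, ← h, zero_pow (by have := hp.two_le; omega)]
    rw [← hδ]
    refine pow_lt_pow_right_of_lt_one₀ h0 h1 ?_
    have := hp.two_le
    exact Nat.mul_lt_mul_of_pos_right (by omega) (by omega)
  · refine mem_of_forall_fixed _ fun τ hτ => hfix τ ?_
    have hact : redAct ρ ⊥ (toGlobal p τ) = 1 := by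
      refine AddMonoidHom.ext fun v => hH.separates _ _ fun f hf => ?_
      have := hH.equivariant f hf τ v
      rw [hτ _ (value_mem_pointField L M' () hf v)] at this
      exact this
    refine Matrix.ext fun i j => (RingHom.injective_iff_ker_eq_bot _).mpr
      (Ideal.mk_ker (I := (⊥ : Ideal k))) ?_
    have h1 : (Ideal.Quotient.mk (⊥ : Ideal k)).mapMatrix (ρ (toGlobal p τ)) = 1 := by
      refine (Matrix.toLin' (R := k ⧸ (⊥ : Ideal k))).injective (LinearMap.ext fun v => ?_)
      rw [Matrix.toLin'_one]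
      exact DFunLike.congr_fun hact v
    have h2 := congrFun (congrFun h1 i) j
    simpa [Matrix.one_apply, apply_ite (Ideal.Quotient.mk (⊥ : Ideal k))] using h2

/-- An element acting trivially on `W[p]` fixes the points of order `p`. -/
private theorem smul_eq_of_residual_eq_one (hΔ : W.Δ ≠ 0) {σ : GalQ}
    (h : mapRep PadicInt.toZMod (tateRep p W hΔ) σ = 1) {z : Pt W} (hz : p • z = 0) :
    σ • z = z := by
  obtain ⟨b, hb⟩ := ModularityLifting.exists_torsion_basis p W hΔ
  have h1 := hb σ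
  rw [h] at h1
  have h2 : galoisRepModuleEnd ℚ (W.map (Int.castRingHom ℚ)).toAffine p σ = 1 :=
    (LinearMap.toMatrix b b).injective (h1.symm.trans (LinearMap.toMatrix_one b).symm)
  exact congrArg Subtype.val (LinearMap.congr_fun h2
    ⟨z, (FLTAgent.ECTorsion.mem_torsionBy_iff_nsmul p _).mpr hz⟩)

open scoped Classical in
/-- A residual representation of a très ramifié curve has no flat model at `p`. -/
theorem not_flatAt_residual (hp2 : p ≠ 2) (hΔ : W.Δ ≠ 0) (hdvd : (p : ℤ) ∣ W.Δ)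
    (hc4 : ¬ (p : ℤ) ∣ W.c₄) (hN : ¬ p ∣ padicValInt p W.Δ) {k : Type} [Field k] [Finite k]
    (φ : ZMod p →+* k) :
    ¬ FlatAt (mapRep φ (mapRep PadicInt.toZMod (tateRep p W hΔ))) p := by
  intro hflat
  have hp : p.Prime := Fact.out
  have := isElliptic (W := W) hΔ
  set A := padicPlace p
  have hA : A.LiesOverPrime p := TWPrimes.padicPlace_liesOverPrime p
  obtain ⟨nd⟩ := exists_node hp hA hdvd hc4
  set E := ((EQ W)⁄Qbar : WeierstrassCurve Qbar)
  set e := padicEmbedding p
  -- a point over the node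
  obtain ⟨z, hz, γ, hzP⟩ := exists_plus_point hp2 hΔ hA hc4 nd
  obtain ⟨x, y, hn, hze, hγ1, hX, hY⟩ := id hzP
  set u := e (nd.X x) with hu
  have hu0 : u ≠ 0 := (map_ne_zero e).2 fun h0 => by
    rw [h0, _root_.map_zero] at hX
    exact (zero_le.trans_lt hY).ne hX
  -- its conjugates lie on the translate of the line of points near infinity
  have := FLTAgent.ECTorsion.finite_torsionBy (EQ W) (K := Qbar)
    (Nat.cast_ne_zero.mpr hp.ne_zero : ((p : ℕ) : Qbar) ≠ 0)
  have := Fintype.ofFinite (Tor W p)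
  set line := Finset.univ.filter fun T : Tor W p => InE1 A E (T : Pt W)
  set T₀ := (line.filter fun T : Tor W p => A.valuation (nd.X (absc (z + (T : Pt W)))) = γ).image
    fun T : Tor W p => e (nd.X (absc (z + (T : Pt W))))
  have hT₀card : T₀.card ≤ p := Finset.card_image_le.trans
    ((Finset.card_filter_le _ _).trans (card_line_le hp2 hΔ hA hc4 nd))
  have hconj : ∀ τ : LocalGal p, τ u ∈ T₀ := fun τ => by
    obtain ⟨T, hT1, hTγ, hTu⟩ := exists_torsion_of_conj hp2 hΔ nd hz hze τ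
    exact Finset.mem_image.mpr ⟨T, Finset.mem_filter.mpr
      ⟨Finset.mem_filter.mpr ⟨Finset.mem_univ _, hT1⟩, hTγ.trans hX⟩, hTu⟩
  -- close conjugates, and a value of denominator `p`
  obtain ⟨π₀, hπ₀⟩ := IsAlgClosed.exists_pow_nat_eq (p : PadicAlgCl p)
    (show 0 < 2 * (p - 1) by have := hp.two_le; omega)
  have hδ : ‖π₀‖ ^ (2 * (p - 1)) = ‖(p : PadicAlgCl p)‖ := by rw [← norm_pow, hπ₀]
  have hclose : ∀ b ∈ T₀, ‖b - u‖ ≤ ‖π₀‖ * ‖u‖ := fun b hb => by
    obtain ⟨T, hT, rfl⟩ := Finset.mem_image.mp hb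
    obtain ⟨hTl, hTγ⟩ := Finset.mem_filter.mp hT
    exact norm_sub_absc_le hp2 hΔ hc4 nd (norm_nonneg π₀) hδ hzP hze hγ1 hX T
      (Finset.mem_filter.mp hTl).2 hTγ
  obtain ⟨m, hm, hum⟩ := exists_norm_pow_prime_eq hp2 hΔ hN nd hz hzP hX hu0 hT₀card hconj
  -- a flat model has no such element among the values of its points
  refine false_of_flatAt hp2 (by rw [← map_natCast φ, ZMod.natCast_self, _root_.map_zero]) hflat
    hT₀card hconj hm hum (norm_nonneg π₀) hδ hclose fun τ hτ => ?_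
  set σ := toGlobal p τ
  have hmat : mapRep PadicInt.toZMod (tateRep p W hΔ) σ = 1 := by
    refine Matrix.ext fun i j => φ.injective ?_
    have h2 := congrFun (congrFun hτ i) j
    simpa [Matrix.one_apply, apply_ite φ, mapRep_apply] using h2
  have hz' : σ • z = z := smul_eq_of_residual_eq_one hΔ hmat hz
  rw [hu, ← padicEmbedding_localGaloisToGlobal p,
    ← (map_coord nd (valPres hp hA (localGaloisToGlobal_mem_decompositionSubgroup p τ))
      (fixesCoeffs σ) x y).1]
  congr 2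
  have := congrArg absc hz'
  rw [absc_smul, hze] at this
  exact this

end FLTAgent.ModularityLifting.Start
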