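import Fermat.Agent.ModularityLifting.Start.Coeff
import Fermat.Agent.ModularityLifting.Start.Kummer
import Fermat.Agent.ModularityLifting.Start.Level
import Fermat.Agent.ModularityLifting.Start.NotFlat
import Fermat.Agent.ModularityLifting.Start.Transfer
import Fermat.Agent.ModularityLifting.TWPrimes
import Fermat.Agent.ModularityLifting.Engine.Interface
import Fermat.Agent.GaloisImage.TWHypothesis
import Fermat.Agent.MFDim.Small

/-!
# The lifting problem of a residually modular semistable curve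

`StartData` packages the lifting problem of a semistable curve with what the modular side uses;
`exists_startData` produces it from residual modularity at a level not divisible by `p²` and
cube-free away from `p`.
-/

set_option autoImplicit false

noncomputable section

open WeierstrassCurve IsLocalRing
open scoped TrivSqZeroExt

namespace FLTAgent.ModularityLifting.Start

open FLTAgent.DefRing FLTAgent.ConductorMatch FLTAgent.Density

local notation "Qbar" => AlgebraicClosure ℚ

/-- The place above `ℓ`. -/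
def place (ℓ : ℕ) : ValuationSubring Qbar :=
  if h : ℓ.Prime then (haveI : Fact ℓ.Prime := ⟨h⟩; padicPlace ℓ) else ⊤

theorem place_eq (p : ℕ) [Fact p.Prime] : place p = padicPlace p := dif_pos Fact.out

/-- The chosen place lies over its prime. -/
theorem place_spec (ℓ : ℕ) (hℓ : ℓ.Prime) : (place ℓ).LiesOverPrime ℓ := by
  have : Fact ℓ.Prime := ⟨hℓ⟩
  rw [place_eq]
  exact TWPrimes.padicPlace_liesOverPrime ℓ

/-- A Frobenius element at the place above `ℓ`. -/
def frob (ℓ : ℕ) : AbsGal :=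
  if h : ℓ.Prime then (exists_isFrobeniusAt (place ℓ) h (place_spec ℓ h)).choose else 1

theorem frob_spec (ℓ : ℕ) (hℓ : ℓ.Prime) : (place ℓ).IsFrobeniusAt (frob ℓ) ℓ := by
  rw [frob, dif_pos hℓ]
  exact (exists_isFrobeniusAt (place ℓ) hℓ (place_spec ℓ hℓ)).choose_spec

variable (p : ℕ) [Fact p.Prime]

theorem coeffMap_injective : Function.Injective (coeffMap p) :=
  (WittVector.map_injective _ (algebraMap (ZMod p) (GaloisField p 2)).injective).comp
    (WittVector.equiv (p := p)).symm.injective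

/-- The flat local bound for Selmer classes at `p`. -/
def FlatBoundInput : Prop :=
  ∀ r : GalQ →* GL (Fin 2) (ResidueField (Coeff p)), GaloisFactorsThroughFiniteLevel r →
    (∀ g, (TWPrimes.mat r g).det =
      ZMod.castHom (dvd_refl p) (ResidueField (Coeff p)) (ExtCitation.cycloChar p g : ZMod p)) →
    ∀ V : Submodule (ResidueField (Coeff p))
        (GalQ → Matrix (Fin 2) (Fin 2) (ResidueField (Coeff p))),
      (∀ c ∈ V, TWPrimes.IsFlatClass p r c) →
      Module.Finite (ResidueField (Coeff p))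
          ((V.map (TWPrimes.resLin p)).map (TWPrimes.adCob (TWPrimes.locHom p r)).mkQ) ∧
        TWPrimes.classDim (TWPrimes.locHom p r) (V.map (TWPrimes.resLin p)) ≤
          Module.finrank (ResidueField (Coeff p)) (TWPrimes.adFixed (TWPrimes.locHom p r)) + 1

/-- The lifting problem of a curve, with the facts used by the modular side and by the last step. -/
structure StartData (W : WeierstrassCurve ℤ) : Type where
  P : LiftProblem (Coeff p)
  p_eq : P.p = p
  trace_frob : ∀ ℓ : ℕ, ℓ.Prime → W.IsGoodPrimeFor ℓ → ℓ ≠ p →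
    (P.ρ (P.frob ℓ)).trace = (W.apOfModel ℓ : Coeff p)
  mem_bad : ∀ v, v ∈ P.minimal ∪ P.raise ↔ v.Prime ∧ (v : ℤ) ∣ W.Δ
  residual : W.IsResiduallyModularOfLevel p (∏ v ∈ P.minimal, v)
  mem_extra : ∀ t ∈ P.extra, p = 3 ∧ t.Prime ∧ t % 3 = 2 ∧ W.IsGoodPrimeFor t ∧
    ∀ A : ValuationSubring Qbar, A.LiesOverPrime t → ∀ φ, A.IsFrobeniusAt φ t →
      residue (Coeff p) (P.ρ φ).trace ≠ 0
  exists_extra : p = 3 → P.extra.Nonempty
  notFlat : P.p ∈ P.minimal → ¬ FlatAt P.ρbar P.p
  tw : ∀ n : ℕ, ∃ q : Fin P.r → ℕ, (∀ i, (q i).Prime ∧ q i ∉ P.loc ∧ q i ≠ P.p) ∧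
    Function.Injective q ∧
    (∀ i, q i % p ^ (n + 1) = 1 ∧
      ∀ A : ValuationSubring Qbar, A.LiesOverPrime (q i) → ∀ φ, A.IsFrobeniusAt φ (q i) →
        ∃ α β : ResidueField (Coeff p),
          α ≠ β ∧ α + β = (P.ρbar φ).trace ∧ α * β = (P.ρbar φ).det) ∧
    ∀ V : Submodule (ResidueField (Coeff p))
        (AbsGal → Matrix (Fin 2) (Fin 2) (ResidueField (Coeff p))),
      (∀ c ∈ V, IsAdCocycle P.ρbar c ∧
        (∀ ℓ : ℕ, ℓ.Prime → ℓ ∉ P.loc → ℓ ≠ P.p → (∀ i, q i ≠ ℓ) →
          ∀ A : ValuationSubring Qbar, A.LiesOverPrime ℓ →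
            ∀ σ ∈ A.inertiaSubgroupIn ℚ, c σ = 0) ∧
        (∀ v ∈ P.loc, ∃ a, a.trace = 0 ∧ ∀ σ ∈ (P.place v).decompositionSubgroup ℚ,
          c σ = a - P.ρbar σ * a * P.ρbar σ⁻¹) ∧
        (P.p ∉ P.loc → ∀ M :
          MatRep (TrivSqZeroExt (ResidueField (Coeff p)) (ResidueField (Coeff p))),
          (∀ σ i j, M σ i j = TrivSqZeroExt.inl (P.ρbar σ i j) +
            TrivSqZeroExt.inr ((c σ * P.ρbar σ) i j)) → FlatAt M P.p)) →
      Module.finrank (ResidueField (Coeff p)) (V.map (adCoboundaries P.ρbar).mkQ) +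
        ∑ v ∈ P.loc, Module.finrank (ResidueField (Coeff p)) (adInvariants P.ρbar (P.place v)) +
        (if P.p ∈ P.loc then 1 else 0) ≤ P.r

variable {p} {W : WeierstrassCurve ℤ}

omit [Fact (Nat.Prime p)] in
theorem not_residuallyModular_one : ¬ W.IsResiduallyModularOfLevel p 1 := by
  rintro ⟨f, -, hf, -⟩
  have h : (CongruenceSubgroup.Gamma0 1).index ≤ 5 := by
    have e : CongruenceSubgroup.Gamma0 1 = ⊤ := by ext; simp [eq_iff_true_of_subsingleton]
    simp [e]
  have h0 := MFDim.cuspForm_weight_two_eq_zero 1 h f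
  have h1 := hf.qCoeff_one
  rw [h0] at h1
  rw [Eigenforms.qCoeff_zero_form] at h1
  exact zero_ne_one h1

/-- Reduction of the coefficient extension of the Tate module representation. -/
private theorem residual_coeffRep (hΔ : W.Δ ≠ 0) :
    mapRep (residue (Coeff p)) (mapRep (coeffMap p) (tateRep p W hΔ)) =
      mapRep (resMap p) (mapRep PadicInt.toZMod (tateRep p W hΔ)) := by
  rw [mapRep_mapRep, mapRep_mapRep, residue_comp_coeffMap]

/-- The coefficient extension of the Tate module representation is unramified at good primes. -/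
private theorem unramifiedAt_coeffRep (hΔ : W.Δ ≠ 0) {q : ℕ} (hq : q.Prime)
    (hbad : q ∉ badPrimes W) (hqp : q ≠ p) :
    UnramifiedAt (mapRep (coeffMap p) (tateRep p W hΔ)) q :=
  unramifiedAt_map _ fun _ hA _ hσ => tateRep_eq_one_of_good W hΔ hq
    (fun hdvd => hbad ((mem_badPrimes hΔ).mpr ⟨hq, hdvd⟩)) hqp hA hσ

/-- Each prime has a sign: that of the Steinberg or strictly ordinary local shape at a bad one. -/
private theorem exists_sign (hp2 : p ≠ 2) (hΔ : W.Δ ≠ 0) (hW : W.IsSemistableModel) (v : ℕ) :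
    ∃ ε : ℤ, (ε = 1 ∨ ε = -1) ∧ (v ∈ badPrimes W →
      (v ≠ p → SteinbergAt (tateRep p W hΔ) v (ε : ℤ_[p])) ∧
      (v = p → StrictAt (tateRep p W hΔ) p (ε : ℤ_[p]))) := by
  by_cases hv : v ∈ badPrimes W
  swap
  · exact ⟨1, Or.inl rfl, fun h => absurd h hv⟩
  obtain ⟨hv, hdvd⟩ := (mem_badPrimes hΔ).mp hv
  by_cases hvp : v = p
  · subst hvp
    obtain ⟨ε, hε, h⟩ := TateLocal.exists_strictAt hp2 hΔ hdvd (hW _ hv hdvd)
    exact ⟨ε, hε, fun _ => ⟨fun h' => absurd rfl h', fun _ => h⟩⟩
  · obtain ⟨ε, hε, h⟩ := TateLocal.exists_sign_trace hp2 hΔ hv hvp hdvd (hW _ hv hdvd)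
    exact ⟨ε, hε, fun _ => ⟨fun _ A hA => ⟨fun τ hτ =>
      sq_tateRep_sub_one W hp2 hΔ hv hdvd (hW _ hv hdvd) hvp hA hτ, h A hA⟩,
      fun h' => absurd h' hvp⟩⟩

/-- The Taylor–Wiles hypothesis for the residual representation, with the auxiliary primes it
gives when `p = 3`. -/
private theorem twHypothesis_coeffRep (hp2 : p ≠ 2) (hΔ : W.Δ ≠ 0) (hW : W.IsSemistableModel)
    (hirr : W.ModRepIsIrreducible p) :
    (∀ G : Subgroup AbsGal, G.index = 2 → AbsIrreducibleOn
      (mapRep (residue (Coeff p)) (mapRep (coeffMap p) (tateRep p W hΔ))) G) ∧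
    ∃ E : Finset ℕ, (∀ t ∈ E, p = 3 ∧ t.Prime ∧ t % 3 = 2 ∧ t ∉ badPrimes W ∧ t ≠ p ∧
      ∀ A : ValuationSubring Qbar, A.LiesOverPrime t → ∀ φ, A.IsFrobeniusAt φ t →
        residue (Coeff p) (mapRep (coeffMap p) (tateRep p W hΔ) φ).trace ≠ 0) ∧
      (p = 3 → E.Nonempty) := by
  obtain ⟨b, hb⟩ := exists_torsion_basis p W hΔ
  obtain ⟨hidx, hthree⟩ := GaloisImage.tw_hypothesis hp2 W hΔ hW hirr
    (mapRep PadicInt.toZMod (tateRep p W hΔ)) b hb
  refine ⟨fun G hG => ?_, ?_⟩
  · rw [residual_coeffRep (p := p) hΔ]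
    exact absIrreducibleOn_map _ (hidx G hG)
  by_cases h3 : p = 3
  swap
  · exact ⟨∅, fun t ht => absurd ht (Finset.notMem_empty t), fun h => absurd h h3⟩
  obtain ⟨t, ht, htS, ht2, htr⟩ := hthree h3 (insert p (badPrimes W))
  rw [Finset.mem_insert, not_or] at htS
  refine ⟨{t}, fun s hs => ?_, fun _ => Finset.singleton_nonempty t⟩
  rw [Finset.mem_singleton] at hs
  subst hs
  refine ⟨h3, ht, ht2, htS.2, htS.1, fun A hA φ hφ h0 => htr A hA φ hφ ?_⟩
  rw [mapRep_trace, ← RingHom.comp_apply, residue_comp_coeffMap, RingHom.comp_apply] at h0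
  rw [mapRep_trace]
  exact (resMap p).injective (h0.trans (map_zero _).symm)

/-- The residual characteristic polynomials split in the coefficient field. -/
private theorem exists_roots_residual (hΔ : W.Δ ≠ 0) (σ : AbsGal) :
    ∃ α β : ResidueField (Coeff p),
      α + β = (mapRep (residue (Coeff p)) (mapRep (coeffMap p) (tateRep p W hΔ)) σ).trace ∧
      α * β = (mapRep (residue (Coeff p)) (mapRep (coeffMap p) (tateRep p W hΔ)) σ).det := by
  obtain ⟨α, β, h1, h2⟩ := exists_add_eq_mul_eq p (card_residue p)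
    (mapRep PadicInt.toZMod (tateRep p W hΔ) σ).trace
    (mapRep PadicInt.toZMod (tateRep p W hΔ) σ).det
  refine ⟨α, β, ?_, ?_⟩
  · rw [h1, residual_coeffRep, mapRep_trace (resMap p)]
  · rw [h2, residual_coeffRep, mapRep_det (resMap p)]

/-- The residual representation is not flat at `p` when `p` is a prime of the minimal level. -/
private theorem not_flatAt_of_mem_minimalPrimes (hp2 : p ≠ 2) (hΔ : W.Δ ≠ 0)
    (hW : W.IsSemistableModel) (hv : p ∈ minimalPrimes p W) :
    ¬ FlatAt (mapRep (residue (Coeff p)) (mapRep (coeffMap p) (tateRep p W hΔ))) p := by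
  obtain ⟨-, hdvd, hmin⟩ := (mem_minimalPrimes hΔ).mp hv
  rcases hmin with h | ⟨-, hpeu⟩
  · exact absurd rfl h.1
  rw [residual_coeffRep]
  refine not_flatAt_residual hp2 hΔ hdvd (hW p Fact.out hdvd) (fun h => hpeu ?_) (resMap p)
  rw [WeierstrassCurve.IsPeuRamifieeAt, WeierstrassCurve.map_Δ, eq_intCast, padicValRat.of_int]
  exact_mod_cast h

/-- The lifting problem of the curve, for given signs, auxiliary primes and elements at `p`. -/
private def liftProblemOf (hp2 : p ≠ 2) (hΔ : W.Δ ≠ 0) (hW : W.IsSemistableModel)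
    (hirrb : AbsIrreducibleOn
      (mapRep (residue (Coeff p)) (mapRep (coeffMap p) (tateRep p W hΔ))) ⊤)
    (εZ : ℕ → ℤ) (hεZ : ∀ v, εZ v = 1 ∨ εZ v = -1)
    (hloc : ∀ v, v ∈ badPrimes W → (v ≠ p → SteinbergAt (tateRep p W hΔ) v (εZ v : ℤ_[p])) ∧
      (v = p → StrictAt (tateRep p W hΔ) p (εZ v : ℤ_[p])))
    (E : Finset ℕ) (hE : ∀ t ∈ E, t.Prime ∧ t ∉ badPrimes W ∧ t ≠ p)
    (hne : (minimalPrimes p W ∪ raisePrimes p W ∪ E).Nonempty)
    (e : Fin 3 → AbsGal) (heD : ∀ i, e i ∈ (padicPlace p).decompositionSubgroup ℚ)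
    (he0 : ExtCitation.cycloChar p (e 0) ≠ 1)
    (heflat : ∀ (M : Type) [AddCommGroup M] [Finite M] (act : AbsGal →* AddMonoid.End M),
      (∀ x : M, p • x = 0) → FiniteFlat.HasFlatModel p act → act (e 1) = 1)
    (hesep : ∀ (V : Type) [AddCommGroup V] [Module (ZMod p) V] (c : AbsGal → V),
      (∀ g ∈ (padicPlace p).decompositionSubgroup ℚ,
        ∀ h ∈ (padicPlace p).decompositionSubgroup ℚ,
          c (g * h) = c g + (ExtCitation.cycloChar p g : ZMod p) • c h) →
      (∃ L : IntermediateField ℚ Qbar, FiniteDimensional ℚ L ∧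
        ∀ g : AbsGal, (∀ x ∈ L, g x = x) → c g = 0) →
      (∀ i, c (e i) = 0) → ∀ g ∈ (padicPlace p).decompositionSubgroup ℚ, c g = 0)
    (r : ℕ) : LiftProblem (Coeff p) :=
  have hbad : minimalPrimes p W ∪ raisePrimes p W = badPrimes W := minimalPrimes_union_raisePrimes
  have hdet : DetCyclotomic (mapRep (coeffMap p) (tateRep p W hΔ)) p :=
    detCyclotomic_map _ (detCyclotomic_tateRep p W hΔ)
  have hresdet : ∀ g : AbsGal, residue (Coeff p) (mapRep (coeffMap p) (tateRep p W hΔ) g).det =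
      resMap p (ExtCitation.cycloChar p g : ZMod p) := fun g => by
    rw [← mapRep_det]
    exact det_eq_cycloChar p (detCyclotomic_map _ hdet) g
  { p := p
    hp := Fact.out
    hp2 := hp2
    p_mem := natCast_mem_maximalIdeal p
    p_ne := natCast_coeff_ne_zero p
    ρ := mapRep (coeffMap p) (tateRep p W hΔ)
    cont := (matCont_tateRep W hΔ).map _ (isLocalHom_coeffMap p)
    det := hdet
    irr := hirrb
    γ := complexConjugation
    γ_sq := complexConjugation_mul_self
    γ_trace := trace_eq_zero (by rw [← map_mul, complexConjugation_mul_self, map_one]) (by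
      rw [mapRep_det, det_tateRep, GaloisAttach.cyc_complexConjugation, map_neg, map_one])
    γ_det := by
      rw [mapRep_det, det_tateRep, GaloisAttach.cyc_complexConjugation, map_neg, map_one]
    minimal := minimalPrimes p W
    raise := raisePrimes p W
    extra := E
    prime := fun v hv => (Finset.mem_union.mp hv).elim
      (fun h => ((mem_badPrimes hΔ).mp (hbad ▸ h)).1) fun h => (hE v h).1
    disjoint_raise := disjoint_minimalPrimes_raisePrimes
    disjoint_extra := by
      rw [hbad, Finset.disjoint_left]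
      exact fun v hv hv' => (hE v hv').2.1 hv
    p_notMem_extra := fun h => (hE p h).2.2 rfl
    loc_nonempty := hne
    place := place
    place_spec := place_spec
    frob := frob
    frob_mem := fun ℓ hℓ => (Density.isFrobeniusAt_iff.mp (frob_spec ℓ hℓ)).1
    frob_spec := frob_spec
    ε := fun v => (εZ v : Coeff p)
    sign := fun v => (hεZ v).imp (fun h => by simp [h]) fun h => by simp [h]
    steinberg := fun v hv hvp => by
      have hv' := hbad ▸ hv
      obtain ⟨hvP, hdvd⟩ := (mem_badPrimes hΔ).mp hv'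
      refine ⟨?_, fun hu => ?_⟩
      · have := steinbergAt_map (coeffMap p) ((hloc v hv').1 hvp)
        rwa [map_intCast] at this
      · obtain ⟨A, hA, σ, hσ, hne'⟩ :=
          TateLocal.exists_tateRep_ne_one hp2 hΔ hvP hvp hdvd (hW v hvP hdvd)
        exact hne' ((unramifiedAt_map_iff _ (coeffMap_injective p)).mp hu A hA σ hσ)
    strict := fun hv => by
      have := strictAt_map (coeffMap p) ((hloc p (hbad ▸ hv)).2 rfl)
      rwa [map_intCast] at this
    flat := fun hv => flatAt_map _ (TateLocal.flatAt_tateRep W hp2 hΔ fun hdvd =>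
      hv (hbad.symm ▸ (mem_badPrimes hΔ).mpr ⟨Fact.out, hdvd⟩))
    unram := fun q hq hqS hqp => unramifiedAt_coeffRep hΔ hq (hbad ▸ hqS) hqp
    minimal_ram := fun v hv hvp hu => by
      rcases ((mem_minimalPrimes hΔ).mp hv).2.2 with h | h
      · rw [residual_coeffRep, unramifiedAt_map_iff _ (resMap p).injective,
          ← galoisRepUnramifiedAt_iff p W hΔ] at hu
        exact h.2 hu
      · exact hvp h.1
    pElem := e
    pElem_mem := fun i => by rw [place_eq]; exact heD i
    pElem_zero := fun h => by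
      rw [hresdet] at h
      exact he0 (Units.ext ((resMap p).injective (h.trans (map_one _).symm)))
    pElem_one_flat := heflat
    pElem_sep := fun c hc hlev hzero g hg => by
      let : Algebra (ZMod p) (ResidueField (Coeff p)) := ZMod.algebra _ p
      rw [place_eq] at hg hc
      refine hesep _ c (fun a ha b' hb' => ?_) hlev hzero g hg
      rw [hc a ha b' hb', hresdet, Algebra.smul_def]
      rfl
    r := r }

/-- **The start of lifting.** A semistable curve, residually modular at a level not divisible by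
`p²` and cube-free away from `p`, gives a lifting problem. -/
theorem exists_startData (hp2 : p ≠ 2) (hΔ : W.Δ ≠ 0) (hW : W.IsSemistableModel)
    (hirr : W.ModRepIsIrreducible p)
    (hflat : FlatBoundInput p) (hkill : KillsFlatInput p)
    (hsq : LowerSquareInput p W) (hatp : LowerAtPInput p W) (hunr : LowerUnramifiedInput p W)
    (M₀ : ℕ) [NeZero M₀] (hres₀ : W.IsResiduallyModularOfLevel p M₀) (hM₀ : ¬ p ^ 2 ∣ M₀)
    (hM₀3 : ∀ q : ℕ, q.Prime → q ≠ p → ¬ q ^ 3 ∣ M₀) : Nonempty (StartData p W) := by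
  classical
  set ρb : MatRep (ResidueField (Coeff p)) :=
    mapRep (residue (Coeff p)) (mapRep (coeffMap p) (tateRep p W hΔ)) with hρb
  have hcontb : MatCont ρb :=
    ((matCont_tateRep W hΔ).map _ (isLocalHom_coeffMap p)).map _ inferInstance
  have hdetb : DetCyclotomic ρb p :=
    detCyclotomic_map _ (detCyclotomic_map _ (detCyclotomic_tateRep p W hΔ))
  have hirrb : AbsIrreducibleOn ρb ⊤ := by
    rw [hρb, residual_coeffRep]
    exact absIrreducibleOn_map _ (absIrreducibleOn_tateRep p hp2 W hΔ hirr)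
  -- signs, auxiliary primes and the elements at `p`
  choose εZ hεZ hloc using exists_sign hp2 hΔ hW
  obtain ⟨hTW, E, hE, hEne⟩ := twHypothesis_coeffRep hp2 hΔ hW hirr
  have hmin := residual_minimal hΔ hsq hatp hunr (NeZero.ne M₀) hM₀ hM₀3 hres₀
  have hne : (minimalPrimes p W ∪ raisePrimes p W ∪ E).Nonempty := by
    by_contra h
    rw [Finset.not_nonempty_iff_eq_empty, Finset.union_eq_empty, Finset.union_eq_empty] at h
    rw [h.1.1, Finset.prod_empty] at hmin
    exact not_residuallyModular_one hmin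
  obtain ⟨e, heD, he0, heflat, hesep⟩ := exists_separating hp2 hkill
  -- Taylor–Wiles primes
  set loc := minimalPrimes p W ∪ raisePrimes p W ∪ E
  have hbad : minimalPrimes p W ∪ raisePrimes p W = badPrimes W := minimalPrimes_union_raisePrimes
  have hlocprime : ∀ v ∈ loc, v.Prime := fun v hv => by
    rcases Finset.mem_union.mp hv with h | h
    · exact ((mem_badPrimes hΔ).mp (hbad ▸ h)).1
    · exact (hE v h).2.1
  obtain ⟨r, hr⟩ := exists_twPrimes_of p hp2 hflat ρb (exists_finiteLevel hcontb) hdetb hirrb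
    hTW (exists_roots_residual hΔ) (insert p loc)
    (fun q hq => (Finset.mem_insert.mp hq).elim (fun h => h ▸ Fact.out) (hlocprime q))
    (Finset.mem_insert_self _ _)
    (fun q hq hqS => unramifiedAt_map _ (unramifiedAt_coeffRep hΔ hq
      (fun h => hqS (Finset.mem_insert_of_mem (Finset.mem_union_left _ (hbad.symm ▸ h))))
      fun h => hqS (h ▸ Finset.mem_insert_self _ _)))
    loc (Finset.subset_insert _ _)
  refine ⟨{
    P := liftProblemOf hp2 hΔ hW hirrb εZ hεZ hloc E
      (fun t ht => ⟨(hE t ht).2.1, (hE t ht).2.2.2.1, (hE t ht).2.2.2.2.1⟩) hne e heD he0 heflat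
      hesep r
    p_eq := rfl
    trace_frob := fun ℓ hℓ hgood hℓp => ?_
    mem_bad := fun v => ?_
    residual := hmin
    mem_extra := fun t ht => ?_
    exists_extra := hEne
    notFlat := not_flatAt_of_mem_minimalPrimes hp2 hΔ hW
    tw := fun n => ?_ }⟩
  · show (mapRep (coeffMap p) (tateRep p W hΔ) (frob ℓ)).trace = _
    rw [mapRep_trace,
      trace_tateRep_frobenius W hΔ hℓ hgood hℓp (place_spec ℓ hℓ) (frob_spec ℓ hℓ), map_intCast]
  · show v ∈ minimalPrimes p W ∪ raisePrimes p W ↔ _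
    rw [hbad, mem_badPrimes hΔ]
  · obtain ⟨h3, htp, ht2, htbad, -, htr⟩ := hE t ht
    exact ⟨h3, htp, ht2, fun hdvd => htbad ((mem_badPrimes hΔ).mpr ⟨htp, hdvd⟩), htr⟩
  · obtain ⟨qv, hinj, hqv, hbound⟩ := hr n
    exact ⟨qv, fun i => ⟨(hqv i).1, fun h => (hqv i).2.1 (Finset.mem_insert_of_mem h),
      fun h => (hqv i).2.1 (h ▸ Finset.mem_insert_self _ _)⟩, hinj,
      fun i => ⟨(hqv i).2.2.1, (hqv i).2.2.2⟩,
      hbound place fun v hv => place_spec v (hlocprime v hv)⟩

end FLTAgent.ModularityLifting.Start
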