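import Fermat.Agent.ConductorMatch.Main
import Fermat.Agent.ModularityLifting.Engine.Interface
import Fermat.Prelude.Def_WeierstrassCurve_Mlc1RowStatement

/-!
# From relations between traces to modularity

The last step of lifting: relations between traces that hold at eigenforms of one level give an
eigenform with the traces of the curve, hence modularity at the exact conductor level.
-/

set_option autoImplicit false

noncomputable section

open WeierstrassCurve ModularFormClass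

namespace FLTAgent.ModularityLifting.Start

/-- An integral system satisfying all common relations of finitely many algebraic systems is one of
them. -/
theorem exists_system_of_relations {ι : Type*} [Finite ι] (a : ι → ℕ → ℂ) (b : ℕ → ℤ)
    (ha : ∀ i ℓ, IsIntegral ℤ (a i ℓ))
    (h : ∀ F : MvPolynomial ℕ ℤ,
      (∀ i, MvPolynomial.aeval (a i) F = 0) → MvPolynomial.aeval b F = 0) :
    ∃ i, ∀ ℓ, a i ℓ = (b ℓ : ℂ) := by
  classical
  have : Fintype ι := Fintype.ofFinite ι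
  let K : ι → Ideal (MvPolynomial ℕ ℤ) := fun i => RingHom.ker (MvPolynomial.aeval (R := ℤ) (a i))
  have hP : (RingHom.ker (MvPolynomial.aeval (R := ℤ) b)).IsPrime := RingHom.ker_isPrime _
  have hle : Finset.univ.inf K ≤ RingHom.ker (MvPolynomial.aeval (R := ℤ) b) := fun F hF =>
    h F fun i => (Finset.inf_le (f := K) (Finset.mem_univ i)) hF
  obtain ⟨i, -, hi⟩ := (Ideal.IsPrime.inf_le' hP).mp hle
  refine ⟨i, fun ℓ => sub_eq_zero.mp (by_contra fun hx => ?_)⟩
  have hint : IsIntegral ℤ (a i ℓ - (b ℓ : ℂ)) := (ha i ℓ).sub (isIntegral_algebraMap (x := b ℓ))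
  set F : MvPolynomial ℕ ℤ := MvPolynomial.X ℓ - MvPolynomial.C (b ℓ)
  have hFa : MvPolynomial.aeval (a i) F = a i ℓ - (b ℓ : ℂ) := by simp [F]
  have hFb : MvPolynomial.aeval b F = 0 := by simp [F]
  set g := minpoly ℤ (a i ℓ - (b ℓ : ℂ)) with hg
  have hmem : Polynomial.aeval F g ∈ RingHom.ker (MvPolynomial.aeval (R := ℤ) b) := hi (by
    show MvPolynomial.aeval (a i) (Polynomial.aeval F g) = 0
    rw [← Polynomial.aeval_algHom_apply, hFa, hg, minpoly.aeval])
  rw [RingHom.mem_ker, ← Polynomial.aeval_algHom_apply, hFb, ← Polynomial.coeff_zero_eq_aeval_zero,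
    ] at hmem
  refine minpoly.coeff_zero_ne_zero (A := ℚ) hint.tower_top hx ?_
  rw [minpoly.isIntegrallyClosed_eq_field_fractions' ℚ hint, Polynomial.coeff_map, ← hg, hmem,
    map_zero]

variable {W : WeierstrassCurve ℤ}

/-- If the traces of the curve at the good primes `ℓ ∤ N` satisfy all relations satisfied by the
eigenforms of level `N`, the curve is modular at its exact conductor level. -/
theorem exact_of_relations (hΔ : W.Δ ≠ 0) (hW : W.IsSemistableModel)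
    {p : ℕ} [Fact p.Prime] (hp2 : p ≠ 2) (hirr : W.ModRepIsIrreducible p)
    {N : ℕ} [NeZero N] (hp2N : ¬ p ^ 2 ∣ N) (hN3 : ∀ q : ℕ, q.Prime → ¬ q ^ 3 ∣ N)
    (hbad : ∀ ℓ : ℕ, ℓ.Prime → (ℓ : ℤ) ∣ W.Δ → ℓ ∣ N)
    (hrel : ∀ F : MvPolynomial ℕ ℤ,
      (∀ f : CuspForm (CongruenceSubgroup.Gamma0 N) 2, f.IsNormalizedEigenform →
        MvPolynomial.aeval
          (fun ℓ : ℕ => if ℓ.Prime ∧ ¬ ℓ ∣ N then qCoeff f ℓ else 0) F = 0) →
      MvPolynomial.aeval (fun ℓ : ℕ => if ℓ.Prime ∧ ¬ ℓ ∣ N then W.apOfModel ℓ else 0) F = 0) :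
    Mlc1IsModularModelOfExactConductorLevel W := by
  have hint := FLTAgent.MFIntegral.hasIntegralStructure N 2
  have := (FLTAgent.Eigenforms.finite_setOf_isNormalizedEigenform hint).to_subtype
  obtain ⟨⟨f, hf⟩, hfa⟩ := exists_system_of_relations
    (fun (f : {f : CuspForm (CongruenceSubgroup.Gamma0 N) 2 | f.IsNormalizedEigenform}) ℓ =>
      if ℓ.Prime ∧ ¬ ℓ ∣ N then qCoeff f.1 ℓ else 0)
    (fun ℓ => if ℓ.Prime ∧ ¬ ℓ ∣ N then W.apOfModel ℓ else 0)
    (fun f ℓ => by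
      split_ifs
      · exact FLTAgent.Eigenforms.isIntegral_qCoeff hint f.2 ℓ
      · exact isIntegral_zero)
    fun F hF => hrel F fun f hf => hF ⟨f, hf⟩
  have hmod : W.IsModularModelOfLevel N := ⟨f, hf, fun ℓ hℓ _ hℓN => by
    have h := hfa ℓ
    simp only [if_pos (And.intro hℓ hℓN)] at h
    exact h⟩
  exact ⟨W.conductorLevel, W.conductorLevel_pos, W.squarefree_conductorLevel,
    fun q hq => W.prime_dvd_conductorLevel_iff hΔ hq,
    ConductorMatch.conductorLevel W hW N p hp2 hirr hp2N hmod hbad hN3⟩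

/-- Modularity of the curve from the conclusion of the engine. -/
theorem exact_of_relationsVanish {O : Type} [CommRing O] [IsDomain O] [IsDiscreteValuationRing O]
    [CharZero O]
    (P : ModularityLifting.LiftProblem O) (hengine : ModularityLifting.RelationsVanish P)
    (hΔ : W.Δ ≠ 0) (hW : W.IsSemistableModel) (hirr : W.ModRepIsIrreducible P.p)
    (hρ : ∀ ℓ : ℕ, ℓ.Prime → W.IsGoodPrimeFor ℓ → ℓ ≠ P.p →
      (P.ρ (P.frob ℓ)).trace = (W.apOfModel ℓ : O))
    {N : ℕ} [NeZero N] (hN2 : ∀ q : ℕ, q.Prime → ¬ q ^ 3 ∣ N) (hpN : ¬ P.p ^ 2 ∣ N)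
    (hbad : ∀ ℓ : ℕ, ℓ.Prime → (ℓ : ℤ) ∣ W.Δ → ℓ ∣ N)
    {d : Finset ℕ → ℕ} (hd : 0 < d ∅) (D : ∀ n, ModularityLifting.LevelDatum P d n)
    (hpts : ∀ n, ∀ θ ∈ (D n).topPts, ∃ f : CuspForm (CongruenceSubgroup.Gamma0 N) 2,
      f.IsNormalizedEigenform ∧ ∃ (L : Type) (_ : CommRing L) (j : (D n).Coeff →+* L)
        (φ : integralClosure ℤ ℂ →+* L), Function.Injective j ∧
        ∀ ℓ : ℕ, ℓ.Prime → ¬ ℓ ∣ N → ℓ ≠ P.p → ∀ a : integralClosure ℤ ℂ,
          (a : ℂ) = qCoeff f ℓ → φ a = j ((D n).rep θ (P.frob ℓ)).trace) :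
    Mlc1IsModularModelOfExactConductorLevel W := by
  classical
  have : Fact P.p.Prime := ⟨P.hp⟩
  -- the level with `p` adjoined
  obtain ⟨N', hN'0, hN'3, hN'p, hdvd, hpN'⟩ : ∃ N' : ℕ, N' ≠ 0 ∧
      (∀ q : ℕ, q.Prime → ¬ q ^ 3 ∣ N') ∧ ¬ P.p ^ 2 ∣ N' ∧ N ∣ N' ∧ P.p ∣ N' := by
    by_cases h : P.p ∣ N
    · exact ⟨N, NeZero.ne N, hN2, hpN, dvd_rfl, h⟩
    refine ⟨N * P.p, mul_ne_zero (NeZero.ne N) P.hp.ne_zero, fun q hq hq3 => ?_, fun hp2 => ?_,
      dvd_mul_right _ _, dvd_mul_left _ _⟩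
    · by_cases hqp : q = P.p
      · rw [hqp, mul_comm, pow_succ'] at hq3
        exact h ((dvd_pow_self P.p two_ne_zero).trans (Nat.dvd_of_mul_dvd_mul_left P.hp.pos hq3))
      · exact hN2 q hq (((Nat.coprime_primes hq P.hp).mpr hqp).pow_left 3 |>.dvd_of_dvd_mul_right
          hq3)
    · rw [pow_two] at hp2
      exact h (Nat.dvd_of_mul_dvd_mul_right P.hp.pos hp2)
  have : NeZero N' := ⟨hN'0⟩
  refine exact_of_relations hΔ hW P.hp2 hirr hN'p hN'3
    (fun ℓ hℓ h => (hbad ℓ hℓ h).trans hdvd) fun F hF => ?_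
  set x : ℕ → MvPolynomial ℕ ℤ := fun ℓ => if ℓ.Prime ∧ ¬ ℓ ∣ N' then MvPolynomial.X ℓ else 0
  have heval : ∀ {B : Type} [CommRing B] (c : ℕ → B),
      MvPolynomial.aeval c (MvPolynomial.aeval x F) =
        MvPolynomial.aeval (fun ℓ => if ℓ.Prime ∧ ¬ ℓ ∣ N' then c ℓ else 0) F := by
    intro B _ c
    rw [← AlgHom.comp_apply, MvPolynomial.comp_aeval]
    congr 2
    funext ℓ
    simp only [x]
    split_ifs <;> simp
  have hv := hengine d hd D (MvPolynomial.aeval x F) fun n θ hθ => by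
    obtain ⟨f, hf, L, _, j, φ, hj, hφ⟩ := hpts n θ hθ
    obtain ⟨g, hg, hgc⟩ := FLTAgent.Eigenforms.exists_eigenform_level_mul
      (FLTAgent.MFIntegral.hasIntegralStructure N' 2) hdvd hf
    have hint := FLTAgent.MFIntegral.hasIntegralStructure N 2
    have h0 : MvPolynomial.aeval (fun ℓ : ℕ => if ℓ.Prime ∧ ¬ ℓ ∣ N' then
        FLTAgent.Eigenforms.intQCoeff hint hf ℓ else 0) F = 0 := by
      apply Subtype.val_injective
      show (integralClosure ℤ ℂ).val (MvPolynomial.aeval _ F) = 0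
      rw [← AlgHom.comp_apply, MvPolynomial.comp_aeval, ← hF g hg]
      congr 2
      funext ℓ
      split_ifs with hℓ
      · exact (hgc ℓ hℓ.1 hℓ.2).symm
      · rfl
    rw [heval]
    refine hj (Eq.trans ?_ (map_zero j).symm)
    show j.toIntAlgHom (MvPolynomial.aeval _ F) = 0
    rw [← AlgHom.comp_apply, MvPolynomial.comp_aeval]
    have h1 : φ.toIntAlgHom (MvPolynomial.aeval (fun ℓ : ℕ => if ℓ.Prime ∧ ¬ ℓ ∣ N' then
        FLTAgent.Eigenforms.intQCoeff hint hf ℓ else 0) F) = 0 :=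
      (congrArg φ.toIntAlgHom h0).trans (map_zero φ)
    rw [← AlgHom.comp_apply, MvPolynomial.comp_aeval] at h1
    refine Eq.trans ?_ h1
    congr 2
    funext ℓ
    split_ifs with hℓ
    · exact (hφ ℓ hℓ.1 (fun h => hℓ.2 (h.trans hdvd)) (fun e => hℓ.2 (e ▸ hpN')) _ rfl).symm
    · exact (map_zero j).trans (map_zero φ).symm
  rw [heval] at hv
  apply Int.cast_injective (α := O)
  show Int.castRingHom O (MvPolynomial.aeval _ F) = _
  rw [Int.cast_zero, ← hv, ← RingHom.toIntAlgHom_apply, ← AlgHom.comp_apply,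
    MvPolynomial.comp_aeval]
  congr 2
  funext ℓ
  split_ifs with hℓ
  · exact (hρ ℓ hℓ.1 (fun h => hℓ.2 ((hbad ℓ hℓ.1 h).trans hdvd))
      (fun e => hℓ.2 (e ▸ hpN'))).symm
  · exact map_zero _

end FLTAgent.ModularityLifting.Start
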