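import Fermat.Agent.ModularityLifting.Start.Main
import Fermat.Agent.ModularityLifting.Start.Finish
import Fermat.Agent.GaloisImage.Det
import Fermat.Prelude.Def_GaloisRep_Residual

/-!
# Modularity at the exact conductor level from a lifting problem

`StartData.exactLevel` deduces modularity at the exact conductor level from a level datum and the
vanishing of the relations at the representation of a lifting problem.
-/

set_option autoImplicit false

noncomputable section

open WeierstrassCurve WeierstrassCurve.Affine.Point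
open scoped WeierstrassCurve.Affine

namespace FLTAgent.ModularityLifting.Start

local notation "Qbar" => AlgebraicClosure ℚ

variable {p : ℕ} [Fact p.Prime] {W : WeierstrassCurve ℤ}

namespace StartData

variable (S : StartData p W)

/-- All bad primes are primes of the problem. -/
theorem dvd_of_bad {N : ℕ} (hN : ∀ v ∈ S.P.minimal ∪ S.P.raise, v ∣ N) {ℓ : ℕ} (hℓ : ℓ.Prime)
    (h : (ℓ : ℤ) ∣ W.Δ) : ℓ ∣ N :=
  hN ℓ ((S.mem_bad ℓ).mpr ⟨hℓ, h⟩)

/-- Modularity at the exact conductor level, from the level data and the engine. -/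
theorem exactLevel
    (hΔ : W.Δ ≠ 0) (hW : W.IsSemistableModel) (hirr : W.ModRepIsIrreducible p)
    (hengine : RelationsVanish S.P) {N : ℕ} [NeZero N]
    (hN3 : ∀ q : ℕ, q.Prime → ¬ q ^ 3 ∣ N) (hpN : ¬ p ^ 2 ∣ N)
    (hN : ∀ v ∈ S.P.minimal ∪ S.P.raise, v ∣ N)
    {d : Finset ℕ → ℕ} (hd : 0 < d ∅) (D : ∀ n, LevelDatum S.P d n)
    (hpts : ∀ n, ∀ θ ∈ (D n).topPts, ∃ f : CuspForm (CongruenceSubgroup.Gamma0 N) 2,
      f.IsNormalizedEigenform ∧ ∃ (L : Type) (_ : CommRing L) (j : (D n).Coeff →+* L)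
        (φ : integralClosure ℤ ℂ →+* L), Function.Injective j ∧
        ∀ ℓ : ℕ, ℓ.Prime → ¬ ℓ ∣ N → ℓ ≠ S.P.p → ∀ a : integralClosure ℤ ℂ,
          (a : ℂ) = ModularFormClass.qCoeff f ℓ → φ a = j ((D n).rep θ (S.P.frob ℓ)).trace) :
    Mlc1IsModularModelOfExactConductorLevel W :=
  exact_of_relationsVanish S.P hengine hΔ hW (by rw [S.p_eq]; exact hirr)
    (fun ℓ hℓ hg hℓp => S.trace_frob ℓ hℓ hg (by rw [← S.p_eq]; exact hℓp)) hN3
    (by rw [S.p_eq]; exact hpN) (fun ℓ hℓ h => S.dvd_of_bad hN hℓ h) hd D hpts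

end StartData

end FLTAgent.ModularityLifting.Start
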