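import Fermat.Agent.ECReduction.Multiple

/-!
# Points over a node: discriminant, conjugate points, classes of torsion points

Auxiliary facts for `Start.NotFlat`: `false_of_class` excludes certain torsion points of odd prime
order over a node when `p` does not divide the exponent of the valuation of the discriminant.
-/

set_option autoImplicit false

noncomputable section

namespace FLTAgent.ModularityLifting.Start

open WeierstrassCurve WeierstrassCurve.Affine FLTAgent.ECReduction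

variable {K : Type*} [Field K] {A : ValuationSubring K} {W : WeierstrassCurve K}
  (nd : NodeData A W)

local notation "v" => A.valuation

theorem node_discr : W.Δ = -nd.c * (nd.u ^ 6 + 432 * nd.c) := by
  have ha3 : W.a₃ = -2 * nd.t - W.a₁ * nd.r := by
    have := nd.eY; simp only [dY] at this; linear_combination this
  have ha4 : W.a₄ = W.a₁ * nd.t - 3 * nd.r ^ 2 - 2 * W.a₂ * nd.r := by
    have := nd.eX; simp only [dX] at this; linear_combination -this
  have ha2 : W.a₂ = nd.s ^ 2 + W.a₁ * nd.s - 3 * nd.r := by linear_combination -nd.es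
  have ha6 : W.a₆ = nd.c - nd.r ^ 3 - W.a₂ * nd.r ^ 2 - W.a₄ * nd.r + nd.t ^ 2
      + W.a₁ * nd.r * nd.t + W.a₃ * nd.t := by simp only [NodeData.c]; ring
  simp only [WeierstrassCurve.Δ, WeierstrassCurve.b₂, WeierstrassCurve.b₄, WeierstrassCurve.b₆,
    WeierstrassCurve.b₈, NodeData.u]
  rw [ha6, ha4, ha3, ha2]; ring

theorem val_node_discr : v W.Δ = v nd.c := by
  have h1 : v (432 * nd.c) < v (nd.u ^ 6) := by
    rw [map_pow, nd.val_u, one_pow]
    exact val_mul_lt_right A (val_ofNat_le A 432) nd.val_c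
  rw [node_discr nd, neg_mul, A.valuation.map_neg, map_mul,
    A.valuation.map_add_eq_of_lt_left h1, map_pow, nd.val_u, one_pow, mul_one]

theorem val_Y_le {x y : K} (h : W.toAffine.Equation x y) (hX : v (nd.X x) < 1)
    (hc : v nd.c < v (nd.X x) ^ 2) : v (nd.Y x y) ≤ v (nd.X x) := by
  by_contra hlt
  rw [not_le] at hlt
  have e := congrArg v (nd.eq_XY h)
  rw [map_mul, A.valuation.map_add_eq_of_lt_left (x := nd.Y x y) (by rwa [nd.val_u_mul])] at e
  have h3 : v (nd.X x ^ 3 + nd.c) < v (nd.X x) ^ 2 := by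
    refine A.valuation.map_add_lt ?_ hc
    rw [map_pow]
    rcases eq_or_ne (v (nd.X x)) 0 with h0 | h0
    · rw [h0, zero_pow two_ne_zero] at hc
      exact absurd hc not_lt_zero
    · exact pow_lt_pow_right_of_lt_one₀ (zero_lt_iff.2 h0) hX (by norm_num)
  rw [← e, ← sq] at h3
  exact h3.not_ge (pow_le_pow_left₀ zero_le hlt.le 2)

variable [DecidableEq K]

/-- Two points over the node with abscissae of equal value, differing by a point near infinity,
have abscissae close to each other. -/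
theorem val_sub_sq_mul_le {γ : A.ValueGroup} (hγ : γ < 1)
    (hc : v nd.c < γ ^ 2) {x₁ y₁ x₂ y₂ x₃ y₃ : K} {h₁ : W.toAffine.Nonsingular x₁ y₁}
    {h₂ : W.toAffine.Nonsingular x₂ y₂} {h₃ : W.toAffine.Nonsingular x₃ y₃}
    (hx : x₁ ≠ x₂) (hX₁ : v (nd.X x₁) = γ) (hX₂ : v (nd.X x₂) = γ)
    (he : (Point.some x₁ y₁ h₁ : W.toAffine.Point) - Point.some x₂ y₂ h₂ = Point.some x₃ y₃ h₃)
    (h3 : 1 < v x₃) : v (x₁ - x₂) ^ 2 * v x₃ ≤ γ ^ 2 := by
  rw [sub_eq_add_neg, Point.neg_some, Point.add_of_X_ne hx] at he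
  obtain ⟨he, -⟩ := Point.some.injEq .. |>.mp he
  set z := W.toAffine.negY x₂ y₂ with hz
  set l := W.toAffine.slope x₁ x₂ y₁ z with hl
  set L := l - nd.s with hL
  have eX : nd.X x₃ = L * (L + nd.u) - nd.X x₁ - nd.X x₂ := by rw [← he, nd.addX_eq]
  have hX₃ : v (nd.X x₃) = v x₃ := by
    rw [NodeData.X, A.valuation.map_sub_eq_of_lt_left (nd.hr.trans_lt h3)]
  have hLL : v (L * (L + nd.u)) = v x₃ := by
    have e : L * (L + nd.u) = nd.X x₃ + (nd.X x₁ + nd.X x₂) := by rw [eX]; ring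
    rw [e, A.valuation.map_add_eq_of_lt_left, hX₃]
    rw [hX₃]
    exact (A.valuation.map_add_le hX₁.le hX₂.le).trans_lt (hγ.trans h3)
  have hL1 : 1 < v L := by
    by_contra hle
    rw [not_lt] at hle
    exact (hLL ▸ val_mul_le A hle (val_add_le A hle nd.val_u.le)).not_gt h3
  rw [map_mul, A.valuation.map_add_eq_of_lt_left (nd.val_u.trans_lt hL1), ← sq] at hLL
  have e1 : L * (x₁ - x₂) = nd.Y x₁ y₁ + nd.Y x₂ y₂ + nd.u * nd.X x₂ := by
    have := nd.negY_eq x₂ y₂
    rw [← hz] at this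
    rw [hL, hl, slope_of_X_ne hx, sub_mul, div_mul_cancel₀ _ (sub_ne_zero.2 hx)]
    simp only [NodeData.Y, NodeData.X] at this ⊢
    linear_combination -this
  have hb : v L * v (x₁ - x₂) ≤ γ := by
    rw [← map_mul, e1]
    refine A.valuation.map_add_le (A.valuation.map_add_le ?_ ?_) ?_
    · exact hX₁ ▸ val_Y_le nd h₁.1 (hX₁ ▸ hγ) (hX₁ ▸ hc)
    · exact hX₂ ▸ val_Y_le nd h₂.1 (hX₂ ▸ hγ) (hX₂ ▸ hc)
    · rw [nd.val_u_mul, hX₂]
  rw [← hLL, ← mul_pow, mul_comm]
  exact pow_le_pow_left₀ zero_le hb 2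

/-- A torsion point of odd prime order over the node whose class has denominator prime to `p` does
not exist when `p` does not divide the exponent of the valuation of the discriminant. -/
theorem false_of_class [IsAlgClosed K] (hW : IntAt A W) (hΔ : W.Δ ≠ 0) {p : ℕ} (hp : p.Prime)
    (hp2 : p ≠ 2) (h2 : v (2 : K) = 1) (hp1 : v (p : K) < 1) (hp0 : (p : K) ≠ 0) {N : ℕ}
    (hN : v nd.c = v (p : K) ^ N) (hpN : ¬ p ∣ N) {z : W.toAffine.Point} (hz : p • z = 0)
    {γ : A.ValueGroup} (hP : nd.Plus z γ) {d : ℕ} (hpd : ¬ p ∣ d) {k : ℤ}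
    (hk : γ ^ d = v (p : K) ^ k) : False := by
  have hd : 0 < d := Nat.pos_of_ne_zero fun h => hpd (h ▸ dvd_zero p)
  obtain ⟨π, hπ⟩ := IsAlgClosed.exists_pow_nat_eq (p : K) (show 0 < 2 * d by omega)
  set w := v π with hw
  have hwp : w ^ (2 * d) = v (p : K) := by rw [hw, ← map_pow, hπ]
  have hπ0 : π ≠ 0 := fun h => hp0 (by rw [← hπ, h, zero_pow (by omega)])
  have hw0 : 0 < w := A.valuation.pos_iff.2 hπ0
  have hw1 : w < 1 := lt_of_not_ge fun hge => hp1.not_ge (hwp ▸ one_le_pow₀ hge)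
  obtain ⟨x, y, h, -, hγ1, hX, hY⟩ := id hP
  have hγ0 : 0 < γ := zero_le.trans_lt hY
  have hk0 : 0 < k := by
    by_contra hle
    rw [not_lt] at hle
    exact (pow_lt_one₀ zero_le hγ1 hd.ne').not_ge
      (hk ▸ one_le_zpow_of_nonpos₀ (A.valuation.pos_iff.2 hp0) hp1.le hle)
  lift k to ℕ using hk0.le with k'
  rw [zpow_natCast, ← hwp, ← pow_mul, show 2 * d * k' = 2 * k' * d by ring, pow_mul] at hk
  have hγ : γ = w ^ (2 * k') := (pow_left_inj₀ zero_le zero_le hd.ne').1 hk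
  have hN0 : 0 < N := Nat.pos_of_ne_zero fun h => hpN (h ▸ dvd_zero p)
  have hc : v nd.c = w ^ (2 * (d * N)) := by rw [hN, ← hwp, ← pow_mul, mul_assoc]
  have hlt := NodeData.Plus.pow_lt nd hw1 (Nat.mul_pos hd hN0) hc hP
  rw [hγ, pow_lt_pow_iff_right_of_lt_one₀ hw0 hw1] at hlt
  have hm : InE0 A W ((2 * (d * N)) • z) := by
    refine NodeData.Plus.two_mul_smul_inE0 nd hW hΔ hπ0 hw1 (ζ := -1)
      (by rw [A.valuation.map_neg, _root_.map_one]) ?_ hc (show 1 ≤ 2 * k' by omega) hlt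
      (hγ ▸ hP)
    rw [show (-1 : K) - 1 = -2 by ring, A.valuation.map_neg, h2]
  refine NodeData.Plus.not_inE0 nd hW hP ?_
  have hcop : (2 * (d * N)).Coprime p := by
    refine (hp.coprime_iff_not_dvd.2 fun hdvd => ?_).symm
    rcases hp.dvd_mul.1 hdvd with h | h
    · exact hp2 ((Nat.prime_dvd_prime_iff_eq hp Nat.prime_two).1 h)
    · exact (hp.dvd_mul.1 h).elim hpd hpN
  obtain ⟨a, b, hab⟩ := Int.isCoprime_iff_gcd_eq_one.2
    (show Int.gcd ((2 * (d * N) : ℕ) : ℤ) (p : ℤ) = 1 from hcop)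
  have e : z = a • (((2 * (d * N) : ℕ) : ℤ) • z) := by
    conv_lhs => rw [← one_zsmul z, ← hab, add_zsmul, mul_zsmul, mul_zsmul,
      natCast_zsmul z p, hz, zsmul_zero, add_zero]
  rw [natCast_zsmul] at e
  rw [e, ← mem_E0 (hW := hW)]
  exact zsmul_mem (mem_E0.2 hm) a

end FLTAgent.ModularityLifting.Start
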