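import Mathlib.NumberTheory.Padics.Hensel
import Mathlib.NumberTheory.Padics.RingHoms
import Mathlib.FieldTheory.Finite.Basic
import Mathlib.Tactic.LinearCombination

/-!
# `ℚ_pˣ` modulo `p`-th powers, for odd `p`: generated by `p` and `1 + p`, independently

`exists_eq_mul_pow` (generation) and `dvd_of_mul_eq_pow` (independence), used for the Kummer
cocycles in `Start.Kummer`.
-/

set_option autoImplicit false

noncomputable section

open Polynomial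

namespace FLTAgent.ModularityLifting.Start

theorem exists_one_add_pow {R : Type*} [CommRing R] (x : R) (n : ℕ) :
    ∃ c, (1 + x) ^ n = 1 + n * x + (n.choose 2 : ℕ) * x ^ 2 + x ^ 3 * c := by
  induction n with
  | zero => exact ⟨0, by simp⟩
  | succ n ih =>
    obtain ⟨c, hc⟩ := ih
    refine ⟨c + (n.choose 2 : ℕ) + x * c, ?_⟩
    rw [pow_succ, hc, Nat.choose_succ_succ' n 1, Nat.choose_one_right]
    push_cast
    ring

variable {p : ℕ} [Fact p.Prime]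

theorem choose_two_eq (hp2 : p ≠ 2) : ∃ m, p.choose 2 = p * m := by
  obtain ⟨k, hk⟩ := (Fact.out : p.Prime).odd_of_ne_two hp2
  refine ⟨k, ?_⟩
  rw [Nat.choose_two_right, hk, show (2 * k + 1 - 1) = k * 2 by omega, ← mul_assoc,
    Nat.mul_div_cancel _ two_pos]

/-- Units congruent to `1` modulo `p²` are `p`-th powers. -/
theorem exists_pow_eq_of_sq_dvd (hp2 : p ≠ 2) {v : ℤ_[p]} (hv : (p : ℤ_[p]) ^ 2 ∣ v - 1) :
    ∃ z : ℤ_[p], z ^ p = v := by
  have hp : p.Prime := Fact.out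
  obtain ⟨t, ht⟩ := hv
  obtain ⟨c, hc⟩ := exists_one_add_pow ((p : ℤ_[p]) * t) p
  obtain ⟨m, hm⟩ := choose_two_eq (p := p) hp2
  set a : ℤ_[p] := 1 + (p : ℤ_[p]) * t with ha
  have hFa : (p : ℤ_[p]) ^ 3 ∣ a ^ p - v := by
    refine ⟨m * t ^ 2 + t ^ 3 * c, ?_⟩
    rw [hm, Nat.cast_mul] at hc
    linear_combination hc - ht
  have ha1 : IsUnit a := by
    refine IsLocalRing.notMem_maximalIdeal.mp fun h => ?_
    rw [PadicInt.maximalIdeal_eq_span_p, Ideal.mem_span_singleton, ha,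
      dvd_add_left (dvd_mul_right _ _)]
      at h
    exact (PadicInt.prime_p (p := p)).not_isUnit (isUnit_of_dvd_one h)
  have hnorm : ‖aeval a (X ^ p - C v : ℤ_[p][X])‖ <
      ‖aeval a (derivative (X ^ p - C v : ℤ_[p][X]))‖ ^ 2 := by
    have e1 : aeval a (X ^ p - C v : ℤ_[p][X]) = a ^ p - v := by simp
    have e2 : aeval a (derivative (X ^ p - C v : ℤ_[p][X])) = p * a ^ (p - 1) := by
      simp [derivative_X_pow]
    rw [e1, e2, norm_mul, norm_pow, PadicInt.isUnit_iff.mp ha1, one_pow, mul_one, PadicInt.norm_p,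
      inv_pow, ← zpow_natCast, ← zpow_neg]
    refine lt_of_le_of_lt ((PadicInt.norm_le_pow_iff_mem_span_pow _ 3).mpr
      (Ideal.mem_span_singleton.mpr hFa)) ?_
    exact zpow_lt_zpow_right₀ (by exact_mod_cast hp.one_lt) (by norm_num)
  obtain ⟨z, hz, -⟩ := hensels_lemma hnorm
  exact ⟨z, sub_eq_zero.mp (by simpa using hz)⟩

theorem exists_natCast_sub_dvd (t : ℤ_[p]) : ∃ j : ℕ, (p : ℤ_[p]) ∣ t - j := by
  refine ⟨(PadicInt.toZMod t).val, ?_⟩
  rw [← Ideal.mem_span_singleton, ← PadicInt.maximalIdeal_eq_span_p, ← PadicInt.ker_toZMod,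
    RingHom.mem_ker, map_sub, map_natCast, ZMod.natCast_zmod_val, sub_self]

/-- Units modulo `p`-th powers are generated by `1 + p`. -/
theorem exists_unit_eq_mul_pow (hp2 : p ≠ 2) (u : ℤ_[p]ˣ) :
    ∃ (j : ℕ) (w : ℤ_[p]), (u : ℤ_[p]) = (1 + p) ^ j * w ^ p := by
  have hp : p.Prime := Fact.out
  have hunit : ∀ x : ℤ_[p], (p : ℤ_[p]) ∣ x - 1 → IsUnit x := fun x hx => by
    refine IsLocalRing.notMem_maximalIdeal.mp fun h => ?_
    rw [PadicInt.maximalIdeal_eq_span_p, Ideal.mem_span_singleton] at h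
    have := dvd_sub h hx
    rw [sub_sub_cancel] at this
    exact (PadicInt.prime_p (p := p)).not_isUnit (isUnit_of_dvd_one this)
  have hv : (p : ℤ_[p]) ∣ (u : ℤ_[p]) ^ (p - 1) - 1 := by
    rw [← Ideal.mem_span_singleton, ← PadicInt.maximalIdeal_eq_span_p, ← PadicInt.ker_toZMod,
      RingHom.mem_ker, map_sub, map_pow, map_one,
      ZMod.pow_card_sub_one_eq_one ((u.isUnit.map PadicInt.toZMod).ne_zero), sub_self]
  obtain ⟨v, hvdef⟩ : ∃ v, v = (u : ℤ_[p]) ^ (p - 1) := ⟨_, rfl⟩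
  rw [← hvdef] at hv
  obtain ⟨t, ht⟩ := hv
  -- `v (1 + p)^j` is `1` modulo `p²`
  obtain ⟨j, hj⟩ := exists_natCast_sub_dvd (p := p) (-t)
  obtain ⟨c, hc⟩ := exists_one_add_pow (p : ℤ_[p]) j
  obtain ⟨s, hs⟩ := hj
  have hdvd : (p : ℤ_[p]) ^ 2 ∣ v * (1 + p) ^ j - 1 :=
    ⟨-s + t * j + (1 + p * t) * ((j.choose 2 : ℕ) + p * c), by
      linear_combination (1 + (p : ℤ_[p])) ^ j * ht + (1 + (p : ℤ_[p]) * t) * hc - (p : ℤ_[p]) * hs⟩
  obtain ⟨z, hz⟩ := exists_pow_eq_of_sq_dvd hp2 hdvd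
  have hzu : IsUnit z := (isUnit_pow_iff hp.ne_zero).mp (hz ▸ hvdef ▸
    (u.isUnit.pow _).mul ((hunit _ (by simp)).pow _))
  obtain ⟨zu, rfl⟩ := hzu
  refine ⟨j, (u : ℤ_[p]) * (zu⁻¹ : ℤ_[p]ˣ), ?_⟩
  have h1 : (u : ℤ_[p]) ^ p = u * v := by
    rw [hvdef, ← pow_succ', Nat.sub_add_cancel hp.one_le]
  have h2 : ((zu⁻¹ : ℤ_[p]ˣ) : ℤ_[p]) ^ p * (zu : ℤ_[p]) ^ p = 1 := by
    rw [← mul_pow, Units.inv_mul, one_pow]
  rw [mul_pow, h1]
  linear_combination (-(u : ℤ_[p])) * h2 + ((u : ℤ_[p]) * ((zu⁻¹ : ℤ_[p]ˣ) : ℤ_[p]) ^ p) * hz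

/-- Nonzero `p`-adic numbers modulo `p`-th powers. -/
theorem exists_eq_mul_pow (hp2 : p ≠ 2) {a : ℚ_[p]} (ha : a ≠ 0) :
    ∃ (i : ℤ) (j : ℕ) (w : ℚ_[p]), a = (p : ℚ_[p]) ^ i * (1 + p) ^ j * w ^ p := by
  have hp0 : (p : ℚ_[p]) ≠ 0 := Nat.cast_ne_zero.mpr (Fact.out : p.Prime).ne_zero
  have hn : ‖a * (p : ℚ_[p]) ^ (-a.valuation)‖ = 1 := by
    rw [norm_mul, Padic.norm_eq_zpow_neg_valuation ha, norm_zpow, Padic.norm_p, inv_zpow',
      neg_neg, ← zpow_add₀ (by exact_mod_cast (Fact.out : p.Prime).ne_zero), neg_add_cancel,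
      zpow_zero]
  obtain ⟨j, w, hw⟩ := exists_unit_eq_mul_pow hp2 (PadicInt.mkUnits hn)
  refine ⟨a.valuation, j, (w : ℚ_[p]), ?_⟩
  have h := congrArg (fun x : ℤ_[p] => (x : ℚ_[p])) hw
  simp only [PadicInt.mkUnits_eq, PadicInt.coe_mul, PadicInt.coe_pow, PadicInt.coe_add,
    PadicInt.coe_one, PadicInt.coe_natCast] at h
  rw [mul_assoc, ← h, mul_left_comm, ← zpow_add₀ hp0, add_neg_cancel, zpow_zero, mul_one]

/-- `p` and `1 + p` are independent modulo `p`-th powers. -/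
theorem dvd_of_mul_eq_pow (_hp2 : p ≠ 2) {i j : ℕ} {w : ℚ_[p]}
    (h : (p : ℚ_[p]) ^ i * (1 + p) ^ j = w ^ p) : p ∣ i ∧ p ∣ j := by
  have hp : p.Prime := Fact.out
  have hp0 : (p : ℚ_[p]) ≠ 0 := Nat.cast_ne_zero.mpr hp.ne_zero
  have h1 : ‖(1 : ℚ_[p]) + p‖ = 1 := by
    have hlt : ‖(p : ℚ_[p])‖ < ‖(1 : ℚ_[p])‖ := by
      rw [Padic.norm_p, norm_one]
      exact inv_lt_one_of_one_lt₀ (by exact_mod_cast hp.one_lt)
    rw [Padic.add_eq_max_of_ne hlt.ne', max_eq_left hlt.le, norm_one]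
  have hw0 : w ≠ 0 := fun e => by
    rw [e, zero_pow hp.ne_zero] at h
    exact mul_ne_zero (pow_ne_zero _ hp0)
      (pow_ne_zero _ (norm_ne_zero_iff.mp (by rw [h1]; norm_num))) h
  have hv : (i : ℤ) = p * w.valuation := by
    have hn := congrArg norm h
    rw [norm_mul, norm_pow, norm_pow, norm_pow, h1, one_pow, mul_one, Padic.norm_p, inv_pow,
      ← zpow_natCast, ← zpow_neg, Padic.norm_eq_zpow_neg_valuation hw0, ← zpow_natCast,
      ← zpow_mul] at hn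
    have := zpow_right_injective₀ (by exact_mod_cast hp.pos) (by exact_mod_cast hp.ne_one) hn
    linarith
  refine ⟨Int.natCast_dvd_natCast.mp ⟨w.valuation, hv⟩, ?_⟩
  set z := w * (p : ℚ_[p]) ^ (-w.valuation) with hz
  have hzn : ‖z‖ = 1 := by
    rw [hz, norm_mul, Padic.norm_eq_zpow_neg_valuation hw0, norm_zpow, Padic.norm_p, inv_zpow',
      neg_neg, ← zpow_add₀ (by exact_mod_cast hp.ne_zero), neg_add_cancel, zpow_zero]
  have hzp : (1 + (p : ℚ_[p])) ^ j = z ^ p := by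
    rw [hz, mul_pow, ← h, ← zpow_natCast ((p : ℚ_[p]) ^ (-w.valuation)) p, ← zpow_mul,
      mul_right_comm, ← zpow_natCast (p : ℚ_[p]) i, ← zpow_add₀ hp0, hv,
      show (p : ℤ) * w.valuation + -w.valuation * p = 0 by ring, zpow_zero, one_mul]
  set y : ℤ_[p] := ⟨z, hzn.le⟩
  have hy : (1 + (p : ℤ_[p])) ^ j = y ^ p := PadicInt.ext (by push_cast; exact hzp)
  have hy1 : (p : ℤ_[p]) ∣ y - 1 := by
    have := congrArg PadicInt.toZMod hy
    rw [map_pow, map_add, map_one, map_natCast, ZMod.natCast_self, add_zero, one_pow, map_pow,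
      ZMod.pow_card] at this
    rw [← Ideal.mem_span_singleton, ← PadicInt.maximalIdeal_eq_span_p, ← PadicInt.ker_toZMod,
      RingHom.mem_ker, map_sub, map_one, ← this, sub_self]
  obtain ⟨s, hs⟩ := hy1
  obtain ⟨c, hc⟩ := exists_one_add_pow (p : ℤ_[p]) j
  obtain ⟨d, hd⟩ := exists_one_add_pow ((p : ℤ_[p]) * s) p
  rw [show y = 1 + p * s by linear_combination hs] at hy
  have : (p : ℤ_[p]) * (j : ℤ_[p]) = p * (p * (s - (j.choose 2 : ℕ) + (p.choose 2 : ℕ) * s ^ 2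
      + p * s ^ 3 * d - p * c)) := by
    linear_combination hy - hc + hd
  have hj : (p : ℤ_[p]) ∣ (j : ℤ_[p]) :=
    ⟨_, mul_left_cancel₀ (PadicInt.prime_p (p := p)).ne_zero this⟩
  obtain ⟨e, he⟩ := hj
  rw [← ZMod.natCast_eq_zero_iff]
  have := congrArg PadicInt.toZMod he
  rw [map_natCast, map_mul, map_natCast, ZMod.natCast_self, zero_mul] at this
  exact this

end FLTAgent.ModularityLifting.Start
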